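import Mathlib
import Fermat.Agent.LT.A2.H467.DataSpec

/-!
# Row LT, tower A2, leaf A2.03.1.1.09 `LocBadOfRepC` (helper293) -- part 2: the algebraic core

OFF-MAIN.  Pure algebra with the local axioms `WX467.LocAx` over any field `k`:

* `chain293`: for `A = [[p, q], [r, s]] ∈ SL₂(k)`, `p ≠ 0`, written as
  `A = t(-1) w n(-r/p) w t(p) n(q/p)`, the function `F A 1` is the initial vector `F 1 1` as soon
  as the three multipliers act trivially (`ψ(q/p · Q) = 1` on the support of `F 1 1`,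
  `η(p) |p| Φ(p ξ) = Φ(ξ)`, `ψ(r/p · Q) = 1` on the support of `F w 1`);
* `rightInv293`: right invariance under a pair `(k₀, κ)` from `LocUniqC`, the axiom `tor` and
  `F (d(δ)⁻¹ k₀) 1 = F 1 1`, `F 1 1 ∘ κ⁻¹ = F 1 1`.
-/

set_option autoImplicit false

open MeasureTheory

noncomputable section

namespace Fermat.Agent.LT.A2.H293

open Fermat.Agent.LT.A2 Fermat.Agent.LT.A2.WX467

variable {k : Type} [Field k]

theorem torMat_one_zero293 (t n : k) : torMat t n 1 0 = 1 := by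
  unfold torMat
  ext i j
  fin_cases i <;> fin_cases j <;> simp

theorem inTorL_one293 (t n : k) : InTorL t n (1 : Matrix (Fin 2) (Fin 2) k) :=
  ⟨1, 0, (torMat_one_zero293 t n).symm⟩

theorem admL_one293 (t n : k) {g : Matrix (Fin 2) (Fin 2) k} (hg : g.det = 1) :
    AdmL t n g 1 :=
  ⟨inTorL_one293 t n, by rw [hg, Matrix.det_one], by rw [Matrix.det_one]; exact one_ne_zero⟩

theorem torMat_mul293 (t n a b a' b' : k) :
    torMat t n a b * torMat t n a' b'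
      = torMat t n (a * a' - n * b * b') (a * b' + b * a' + t * b * b') := by
  unfold torMat
  ext i j
  fin_cases i <;> fin_cases j <;> simp [Matrix.mul_apply, Fin.sum_univ_two] <;> ring

theorem inTorL_mul293 {t n : k} {κ κ' : Matrix (Fin 2) (Fin 2) k} (h : InTorL t n κ)
    (h' : InTorL t n κ') : InTorL t n (κ * κ') := by
  obtain ⟨a, b, rfl⟩ := h
  obtain ⟨a', b', rfl⟩ := h'
  exact ⟨_, _, torMat_mul293 t n a b a' b'⟩

theorem det_torMat293 (t n a b : k) : (torMat t n a b).det = a ^ 2 + t * a * b + n * b ^ 2 := by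
  unfold torMat
  rw [Matrix.det_fin_two_of]
  ring

theorem actL_torMat293 (t n a b : k) (ξ : k × k) :
    actL (torMat t n a b) ξ = (a * ξ.1 - n * b * ξ.2, a * ξ.2 + b * ξ.1 + t * b * ξ.2) := by
  unfold actL torMat
  refine Prod.ext ?_ ?_
  · simp; ring
  · simp; ring

theorem actL_mul293 (A B : Matrix (Fin 2) (Fin 2) k) (ξ : k × k) :
    actL (A * B) ξ = actL A (actL B ξ) := by
  unfold actL
  refine Prod.ext ?_ ?_
  · simp [Matrix.mul_apply, Fin.sum_univ_two]; ring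
  · simp [Matrix.mul_apply, Fin.sum_univ_two]; ring

theorem actL_one293 (ξ : k × k) : actL (1 : Matrix (Fin 2) (Fin 2) k) ξ = ξ := by
  unfold actL
  refine Prod.ext ?_ ?_
  · simp
  · simp

/-- The matrix identity behind the chain: `[[p, q], [r, s]] = t(-1) w n(-r/p) w t(p) n(q/p)`. -/
theorem chain_matrix293 {p q r s : k} (hp : p ≠ 0) (hdet : p * s - q * r = 1) :
    (!![(-1 : k), 0; 0, (-1 : k)⁻¹] * (!![0, 1; -1, 0] * (!![1, -(r / p); 0, 1] *
      (!![0, 1; -1, 0] * (!![p, 0; 0, p⁻¹] * (!![1, q / p; 0, 1] * 1))))))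
      = !![p, q; r, s] := by
  have hs : s = (1 + q * r) / p := by
    field_simp
    linear_combination hdet
  ext i j
  fin_cases i <;> fin_cases j <;>
    simp [Matrix.mul_apply, Fin.sum_univ_two, inv_neg] <;> field_simp <;>
    first
      | done
      | (rw [hs]; field_simp; try ring)
      | ring

theorem weyl_sq_matrix293 :
    (!![(-1 : k), 0; 0, (-1 : k)⁻¹] * (!![0, 1; -1, 0] * (!![0, 1; -1, 0] * 1)))
      = (1 : Matrix (Fin 2) (Fin 2) k) := by
  ext i j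
  fin_cases i <;> fin_cases j <;> simp [Matrix.mul_apply, Fin.sum_univ_two, inv_neg]

variable [TopologicalSpace k]

/-- **The chain.** -/
theorem chain293 {absv : k → ℝ} {t n : k} {ψ : k → ℂ} {μ : @Measure k (borel k)} {γ : ℂ}
    {η : k → ℂ} {F : Matrix (Fin 2) (Fin 2) k → Matrix (Fin 2) (Fin 2) k → k × k → ℂ}
    (hax : LocAx absv t n ψ μ γ η F) {p q r s : k} (hp : p ≠ 0) (hdet : p * s - q * r = 1)
    (h1 : ∀ ξ : k × k, ψ (q / p * qfL t n ξ) * F 1 1 ξ = F 1 1 ξ)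
    (h2 : ∀ ξ : k × k, η p * ((absv p : ℝ) : ℂ) * F 1 1 (p • ξ) = F 1 1 ξ)
    (h3 : ∀ ξ : k × k, ψ (-(r / p) * qfL t n ξ) * F (!![0, 1; -1, 0] * 1) 1 ξ
      = F (!![0, 1; -1, 0] * 1) 1 ξ) :
    F !![p, q; r, s] 1 = F 1 1 := by
  have hd1 : (1 : Matrix (Fin 2) (Fin 2) k).det = 1 := Matrix.det_one
  have dN : ∀ x : k, (!![1, x; 0, 1] : Matrix (Fin 2) (Fin 2) k).det = 1 := by
    intro x; rw [Matrix.det_fin_two_of]; ring
  have dW : (!![0, 1; -1, 0] : Matrix (Fin 2) (Fin 2) k).det = 1 := by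
    rw [Matrix.det_fin_two_of]; ring
  have dT : ∀ a : k, a ≠ 0 → (!![a, 0; 0, a⁻¹] : Matrix (Fin 2) (Fin 2) k).det = 1 := by
    intro a ha; rw [Matrix.det_fin_two_of]; field_simp; ring
  have hm1 : (-1 : k) ≠ 0 := neg_ne_zero.mpr one_ne_zero
  -- the intermediate matrices
  set g1 : Matrix (Fin 2) (Fin 2) k := !![1, q / p; 0, 1] * 1 with hg1
  set g2 : Matrix (Fin 2) (Fin 2) k := !![p, 0; 0, p⁻¹] * g1 with hg2
  set g3 : Matrix (Fin 2) (Fin 2) k := !![0, 1; -1, 0] * g2 with hg3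
  set g4 : Matrix (Fin 2) (Fin 2) k := !![1, -(r / p); 0, 1] * g3 with hg4
  set g5 : Matrix (Fin 2) (Fin 2) k := !![0, 1; -1, 0] * g4 with hg5
  have a0 : AdmL t n (1 : Matrix (Fin 2) (Fin 2) k) 1 := admL_one293 t n hd1
  have a1 : AdmL t n g1 1 := admL_one293 t n (by rw [hg1, Matrix.det_mul, dN, hd1, mul_one])
  have a2 : AdmL t n g2 1 := admL_one293 t n (by rw [hg2, Matrix.det_mul, dT p hp, a1.2.1, hd1, mul_one])
  have a3 : AdmL t n g3 1 := admL_one293 t n (by rw [hg3, Matrix.det_mul, dW, a2.2.1, hd1, mul_one])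
  have a4 : AdmL t n g4 1 := admL_one293 t n (by rw [hg4, Matrix.det_mul, dN, a3.2.1, hd1, mul_one])
  have a5 : AdmL t n g5 1 := admL_one293 t n (by rw [hg5, Matrix.det_mul, dW, a4.2.1, hd1, mul_one])
  have aW : AdmL t n ((!![0, 1; -1, 0] : Matrix (Fin 2) (Fin 2) k) * 1) 1 :=
    admL_one293 t n (by rw [Matrix.det_mul, dW, hd1, mul_one])
  have aWW : AdmL t n ((!![0, 1; -1, 0] : Matrix (Fin 2) (Fin 2) k) * (!![0, 1; -1, 0] * 1)) 1 :=
    admL_one293 t n (by rw [Matrix.det_mul, Matrix.det_mul, dW, hd1, mul_one, mul_one])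
  have e1 : F g1 1 = F 1 1 := by
    funext ξ
    rw [hg1, hax.unip (q / p) 1 1 ξ a0]
    exact h1 ξ
  have e2 : F g2 1 = F 1 1 := by
    funext ξ
    rw [hg2, hax.diag p hp g1 1 ξ a1, e1]
    exact h2 ξ
  have e3 : F g3 1 = F (!![0, 1; -1, 0] * 1) 1 := by
    funext ξ
    rw [hg3, hax.weyl g2 1 ξ a2, hax.weyl 1 1 ξ a0, e2]
  have e4 : F g4 1 = F (!![0, 1; -1, 0] * 1) 1 := by
    funext ξ
    rw [hg4, hax.unip (-(r / p)) g3 1 ξ a3, e3]
    exact h3 ξ
  have e5 : F g5 1 = F (!![0, 1; -1, 0] * (!![0, 1; -1, 0] * 1)) 1 := by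
    funext ξ
    rw [hg5, hax.weyl g4 1 ξ a4, hax.weyl _ 1 ξ aW, e4]
  have e6 : F (!![(-1 : k), 0; 0, (-1 : k)⁻¹] * g5) 1 = F 1 1 := by
    funext ξ
    rw [hax.diag (-1) hm1 g5 1 ξ a5, e5, ← hax.diag (-1) hm1 _ 1 ξ aWW, weyl_sq_matrix293]
  rw [← chain_matrix293 hp hdet]
  exact e6

/-- **Right invariance from uniqueness.** -/
theorem rightInv293 (huniq : LocUniqC) {absv : k → ℝ} {t n : k} {ψ : k → ℂ}
    {μ : @Measure k (borel k)} {γ : ℂ} {η : k → ℂ}
    {F : Matrix (Fin 2) (Fin 2) k → Matrix (Fin 2) (Fin 2) k → k × k → ℂ}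
    (hpos : ∀ a : k, a ≠ 0 → 0 < absv a)
    (hax : LocAx absv t n ψ μ γ η F) {k₀ κ : Matrix (Fin 2) (Fin 2) k}
    (hκ : InTorL t n κ) (hdet : k₀.det = κ.det) (hne : κ.det ≠ 0) (habs : absv κ.det = 1)
    (hA : F !![k₀ 0 0, k₀ 0 1; κ.det⁻¹ * k₀ 1 0, κ.det⁻¹ * k₀ 1 1] 1 = F 1 1)
    (hΦ : ∀ ξ : k × k, F 1 1 (actL κ⁻¹ ξ) = F 1 1 ξ) :
    ∀ (g m : Matrix (Fin 2) (Fin 2) k) (ξ : k × k), AdmL t n g m →
      F (g * k₀) (m * κ) ξ = F g m ξ := by
  have hadm : ∀ g m : Matrix (Fin 2) (Fin 2) k, AdmL t n g m → AdmL t n (g * k₀) (m * κ) := by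
    intro g m h
    refine ⟨inTorL_mul293 h.1 hκ, ?_, ?_⟩
    · rw [Matrix.det_mul, Matrix.det_mul, h.2.1, hdet]
    · rw [Matrix.det_mul]
      exact mul_ne_zero h.2.2 hne
  have hax' : LocAx absv t n ψ μ γ η (fun g m => F (g * k₀) (m * κ)) :=
    { unip := fun x g m ξ h => by
        have := hax.unip x (g * k₀) (m * κ) ξ (hadm g m h)
        rw [← Matrix.mul_assoc] at this
        exact this
      weyl := fun g m ξ h => by
        have := hax.weyl (g * k₀) (m * κ) ξ (hadm g m h)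
        rw [← Matrix.mul_assoc] at this
        exact this
      diag := fun a ha g m ξ h => by
        have := hax.diag a ha (g * k₀) (m * κ) ξ (hadm g m h)
        rw [← Matrix.mul_assoc] at this
        exact this
      tor := fun μ' hμ' hd g m ξ h => by
        have := hax.tor μ' hμ' hd (g * k₀) (m * κ) ξ (hadm g m h)
        rw [← Matrix.mul_assoc, ← Matrix.mul_assoc] at this
        exact this
      eta_mul := hax.eta_mul
      eta_sq := hax.eta_sq
      eta_norm := hax.eta_norm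
      eta_cont := hax.eta_cont
      haar := hax.haar
      psi_char := hax.psi_char
      cont := fun g m h => hax.cont _ _ (hadm g m h)
      integrable := fun g m h => hax.integrable _ _ (hadm g m h) }
  -- the initial vector of the translated family
  have hdA : (!![k₀ 0 0, k₀ 0 1; κ.det⁻¹ * k₀ 1 0, κ.det⁻¹ * k₀ 1 1] :
      Matrix (Fin 2) (Fin 2) k).det = 1 := by
    rw [Matrix.det_fin_two_of]
    have h0 : k₀.det = k₀ 0 0 * k₀ 1 1 - k₀ 0 1 * k₀ 1 0 := Matrix.det_fin_two k₀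
    have : k₀ 0 0 * (κ.det⁻¹ * k₀ 1 1) - k₀ 0 1 * (κ.det⁻¹ * k₀ 1 0)
        = κ.det⁻¹ * (k₀ 0 0 * k₀ 1 1 - k₀ 0 1 * k₀ 1 0) := by ring
    rw [this, ← h0, hdet, inv_mul_cancel₀ hne]
  have hk₀ : !![1, 0; 0, κ.det] * !![k₀ 0 0, k₀ 0 1; κ.det⁻¹ * k₀ 1 0, κ.det⁻¹ * k₀ 1 1]
      = k₀ := by
    ext i j
    fin_cases i <;> fin_cases j <;> simp [Matrix.mul_apply, Fin.sum_univ_two, hne]
  have h11 : F (1 * k₀) (1 * κ) = F 1 1 := by
    funext ξ
    have h := hax.tor κ hκ hne _ 1 ξ (admL_one293 t n hdA)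
    rw [hk₀, habs, Real.sqrt_one, Complex.ofReal_one, one_mul, hA, hΦ] at h
    rw [Matrix.one_mul, Matrix.one_mul]
    rw [Matrix.mul_one] at h
    exact h
  intro g m ξ h
  have := huniq k absv t n ψ μ γ η F (fun g m => F (g * k₀) (m * κ)) hpos hax hax' h11.symm g m h
  exact (congrFun this ξ).symm

end Fermat.Agent.LT.A2.H293

end
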