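import Mathlib
import Fermat.Agent.LT.A2.H467.DataSpec

/-!
# Row LT, tower A2, leaf A2.03.1.1.09 `LocBadOfRepC` (helper293) -- part 1: the local embedding

OFF-MAIN.  The embedding `ι_v : K_v → 𝔸_K` (component `y` at `v`, `0` elsewhere), its continuity,
and the local component `ψ_v = ψ ∘ ι_v` of a character of `𝔸_K`.
-/

set_option autoImplicit false

open IsDedekindDomain NumberField

noncomputable section

namespace Fermat.Agent.LT.A2.H293

open Fermat.Agent.LT.H556 Fermat.Agent.LT.A2

variable {K : Type} [Field K] [NumberField K]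

open scoped Classical

/-- The finite adele with component `y` at `v` and `0` elsewhere. -/
def finEmb293 (v : HeightOneSpectrum (𝓞 K)) (y : v.adicCompletion K) :
    FiniteAdeleRing (𝓞 K) K :=
  RestrictedProduct.single (fun v : HeightOneSpectrum (𝓞 K) => v.adicCompletionIntegers K) v y

/-- The adele with component `y` at `v` and `0` elsewhere. -/
def locEmb293 (v : HeightOneSpectrum (𝓞 K)) (y : v.adicCompletion K) : A0.Adl K :=
  ((0 : InfiniteAdeleRing K), finEmb293 v y)

theorem locEmb293_fin_same (v : HeightOneSpectrum (𝓞 K)) (y : v.adicCompletion K) :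
    (locEmb293 v y).2 v = y :=
  RestrictedProduct.single_eq_same _ v y

theorem locEmb293_fin_of_ne (v : HeightOneSpectrum (𝓞 K)) (y : v.adicCompletion K)
    {v' : HeightOneSpectrum (𝓞 K)} (h : v' ≠ v) : (locEmb293 v y).2 v' = 0 :=
  RestrictedProduct.single_eq_of_ne _ y h

theorem locEmb293_inf (v : HeightOneSpectrum (𝓞 K)) (y : v.adicCompletion K)
    (w : InfinitePlace K) : (locEmb293 v y).1 w = 0 := rfl

theorem adlAtFin_locEmb293 (v : HeightOneSpectrum (𝓞 K)) (y : v.adicCompletion K) :
    WL.AdlAtFin v (locEmb293 v y) :=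
  ⟨fun w => locEmb293_inf v y w, fun _ h => locEmb293_fin_of_ne v y h⟩

/-- An adele supported at `v` is the image of its component at `v`. -/
theorem eq_locEmb293_of_adlAtFin {v : HeightOneSpectrum (𝓞 K)} {x : A0.Adl K}
    (h : WL.AdlAtFin v x) : x = locEmb293 v (x.2 v) := by
  refine Prod.ext ?_ ?_
  · funext w
    exact h.1 w
  · refine RestrictedProduct.ext _ _ fun v' => ?_
    by_cases hv : v' = v
    · subst hv
      exact (locEmb293_fin_same v' _).symm
    · exact (h.2 v' hv).trans (locEmb293_fin_of_ne v _ hv).symm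

theorem locEmb293_add (v : HeightOneSpectrum (𝓞 K)) (y z : v.adicCompletion K) :
    locEmb293 v (y + z) = locEmb293 v y + locEmb293 v z := by
  refine Prod.ext ?_ ?_
  · show (0 : InfiniteAdeleRing K) = 0 + 0
    rw [add_zero]
  · refine RestrictedProduct.ext _ _ fun v' => ?_
    by_cases hv : v' = v
    · subst hv
      have e1 := locEmb293_fin_same v' (y + z)
      have e2 := locEmb293_fin_same v' y
      have e3 := locEmb293_fin_same v' z
      show (locEmb293 v' (y + z)).2 v' = (locEmb293 v' y).2 v' + (locEmb293 v' z).2 v'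
      exact e1.trans (by rw [e2, e3])
    · have e1 := locEmb293_fin_of_ne v (y + z) hv
      have e2 := locEmb293_fin_of_ne v y hv
      have e3 := locEmb293_fin_of_ne v z hv
      show (locEmb293 v (y + z)).2 v' = (locEmb293 v y).2 v' + (locEmb293 v z).2 v'
      exact e1.trans (by rw [e2, e3, add_zero])

theorem locEmb293_zero (v : HeightOneSpectrum (𝓞 K)) : locEmb293 v (0 : v.adicCompletion K) = 0 := by
  have h := locEmb293_add v (0 : v.adicCompletion K) 0
  rw [add_zero] at h
  exact left_eq_add.mp h

end Fermat.Agent.LT.A2.H293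

end
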