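import Mathlib
import Fermat.Agent.LT.H129.Local
import Fermat.Agent.LT.A2.H293.LocEmb

/-!
# Row LT, tower A2, leaf A2.03.1.1.09 `LocBadOfRepC` (helper293) -- part 7: continuity of the
local embeddings

OFF-MAIN.  `K_v → 𝔸_K` (`locEmb293`) and `GL₂(K_v) → GL₂(𝔸_K)` (`locFin129`) are continuous.
-/

set_option autoImplicit false

open IsDedekindDomain NumberField Filter Topology

noncomputable section

namespace Fermat.Agent.LT.A2.H293

open Fermat.Agent.LT.H129 Fermat.Agent.LT.H556 Fermat.Agent.LT.A2

variable {K : Type} [Field K] [NumberField K]

open scoped Classical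

theorem continuous_finEmb293 (v : HeightOneSpectrum (𝓞 K)) :
    Continuous (finEmb293 (K := K) v) := by
  have hS : (cofinite : Filter (HeightOneSpectrum (𝓞 K)))
      ≤ 𝓟 ({v}ᶜ : Set (HeightOneSpectrum (𝓞 K))) := by
    rw [le_principal_iff]
    exact (Set.finite_singleton v).compl_mem_cofinite
  let g : v.adicCompletion K →
      RestrictedProduct (fun v : HeightOneSpectrum (𝓞 K) => v.adicCompletion K)
        (fun v : HeightOneSpectrum (𝓞 K) =>
          (v.adicCompletionIntegers K : Set (v.adicCompletion K)))
        (𝓟 ({v}ᶜ : Set (HeightOneSpectrum (𝓞 K)))) :=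
    fun y => ⟨Pi.single v y, by
      rw [eventually_principal]
      intro v' hv'
      have : v' ≠ v := hv'
      rw [Pi.single_eq_of_ne this]
      exact zero_mem _⟩
  have hg : Continuous g := by
    rw [RestrictedProduct.continuous_rng_of_principal]
    exact continuous_single v
  have he : finEmb293 (K := K) v = RestrictedProduct.inclusion _ _ hS ∘ g := by
    funext y
    rfl
  rw [he]
  exact (RestrictedProduct.continuous_inclusion hS).comp hg

theorem continuous_locEmb293 (v : HeightOneSpectrum (𝓞 K)) :
    Continuous (locEmb293 (K := K) v) := by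
  unfold locEmb293
  exact Continuous.prodMk continuous_const (continuous_finEmb293 v)

theorem continuous_mulSingle293 (v : HeightOneSpectrum (𝓞 K)) :
    Continuous (fun y : v.adicCompletion K =>
      (RestrictedProduct.mulSingle
        (fun v : HeightOneSpectrum (𝓞 K) => v.adicCompletionIntegers K) v y :
        FiniteAdeleRing (𝓞 K) K)) := by
  have hS : (cofinite : Filter (HeightOneSpectrum (𝓞 K)))
      ≤ 𝓟 ({v}ᶜ : Set (HeightOneSpectrum (𝓞 K))) := by
    rw [le_principal_iff]
    exact (Set.finite_singleton v).compl_mem_cofinite
  let g : v.adicCompletion K →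
      RestrictedProduct (fun v : HeightOneSpectrum (𝓞 K) => v.adicCompletion K)
        (fun v : HeightOneSpectrum (𝓞 K) =>
          (v.adicCompletionIntegers K : Set (v.adicCompletion K)))
        (𝓟 ({v}ᶜ : Set (HeightOneSpectrum (𝓞 K)))) :=
    fun y => ⟨Pi.mulSingle v y, by
      rw [eventually_principal]
      intro v' hv'
      have : v' ≠ v := hv'
      rw [Pi.mulSingle_eq_of_ne this]
      exact one_mem _⟩
  have hg : Continuous g := by
    rw [RestrictedProduct.continuous_rng_of_principal]
    exact continuous_mulSingle v
  have he : (fun y : v.adicCompletion K =>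
      (RestrictedProduct.mulSingle
        (fun v : HeightOneSpectrum (𝓞 K) => v.adicCompletionIntegers K) v y :
        FiniteAdeleRing (𝓞 K) K)) = RestrictedProduct.inclusion _ _ hS ∘ g := by
    funext y
    rfl
  rw [he]
  exact (RestrictedProduct.continuous_inclusion hS).comp hg

theorem continuous_finSingle293 (v : HeightOneSpectrum (𝓞 K)) (d : Bool) :
    Continuous (finSingle129 (K := K) v d) := by
  cases d
  · have : finSingle129 (K := K) v false = finEmb293 v := by
      funext y
      unfold finSingle129 finEmb293
      rw [if_neg Bool.false_ne_true]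
    rw [this]
    exact continuous_finEmb293 v
  · have : finSingle129 (K := K) v true = fun y : v.adicCompletion K =>
        (RestrictedProduct.mulSingle
          (fun v : HeightOneSpectrum (𝓞 K) => v.adicCompletionIntegers K) v y :
          FiniteAdeleRing (𝓞 K) K) := by
      funext y
      unfold finSingle129
      rw [if_pos rfl]
    rw [this]
    exact continuous_mulSingle293 v

theorem continuous_locMat293 (v : HeightOneSpectrum (𝓞 K)) :
    Continuous (locMat129 (K := K) v) := by
  refine continuous_matrix fun i j => ?_
  unfold locMat129
  exact Continuous.prodMk continuous_const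
    ((continuous_finSingle293 v _).comp (continuous_id.matrix_elem i j))

theorem continuous_locFin293 (v : HeightOneSpectrum (𝓞 K)) :
    Continuous (locFin129 (K := K) v) := by
  rw [Units.continuous_iff]
  refine ⟨?_, ?_⟩
  · exact (continuous_locMat293 v).comp Units.continuous_val
  · exact (continuous_locMat293 v).comp Units.continuous_coe_inv

end Fermat.Agent.LT.A2.H293

end
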