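import Mathlib
import Fermat.Agent.LT.H129.ValLimit
import Fermat.Agent.LT.H129.HenselQuad

/-!
# Row LT, tower A2, leaf A2.03.1.1.09 `LocBadOfRepC` (helper293) -- part 3: valuation lemmas

OFF-MAIN.  A field `k` valued in `ℤᵐ⁰`: the balls `ϖ^N 𝒪`, no small subgroups (characters are
trivial on a small ball), square roots near `1` (Hensel), compact sets are bounded.
-/

set_option autoImplicit false

open Filter Topology

noncomputable section

namespace Fermat.Agent.LT.A2.H293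

open Fermat.Agent.LT.T6 Fermat.Agent.LT.H129

variable {k : Type} [Field k] [Valued k Γ₀]

/-- The ball `{x : |x| ≤ exp j}`. -/
def ballZ293 (k : Type) [Field k] [Valued k Γ₀] (j : ℤ) : Set k :=
  {x | Valued.v x ≤ WithZero.exp j}

/-- The ball `ϖ^N 𝒪 = {x : |x| ≤ exp (-N)}`. -/
def ball293 (k : Type) [Field k] [Valued k Γ₀] (N : ℕ) : Set k := ballZ293 k (-(N : ℤ))

theorem mem_ball293 {N : ℕ} {x : k} :
    x ∈ ball293 k N ↔ Valued.v x ≤ WithZero.exp (-(N : ℤ)) := Iff.rfl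

theorem exp_neg_le_one293 (N : ℕ) : (WithZero.exp (-(N : ℤ)) : Γ₀) ≤ 1 := by
  rw [← WithZero.exp_zero, WithZero.exp_le_exp]
  omega

theorem exp_neg_lt_one293 {N : ℕ} (h : 1 ≤ N) : (WithZero.exp (-(N : ℤ)) : Γ₀) < 1 := by
  rw [← WithZero.exp_zero, WithZero.exp_lt_exp]
  omega

theorem exp_neg_anti293 {N N' : ℕ} (h : N ≤ N') :
    (WithZero.exp (-(N' : ℤ)) : Γ₀) ≤ WithZero.exp (-(N : ℤ)) := by
  rw [WithZero.exp_le_exp]
  omega

theorem ball_anti293 {N N' : ℕ} (h : N ≤ N') : ball293 k N' ⊆ ball293 k N :=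
  fun _ hx => le_trans hx (exp_neg_anti293 h)

theorem zero_mem_ball293 (N : ℕ) : (0 : k) ∈ ball293 k N := by
  rw [mem_ball293, map_zero]
  exact zero_le

theorem add_mem_ball293 {N : ℕ} {x y : k} (hx : x ∈ ball293 k N) (hy : y ∈ ball293 k N) :
    x + y ∈ ball293 k N := by
  rw [mem_ball293] at hx hy ⊢
  exact le_trans (Valuation.map_add _ _ _) (max_le hx hy)

theorem neg_mem_ball293 {N : ℕ} {x : k} (hx : x ∈ ball293 k N) : -x ∈ ball293 k N := by
  rw [mem_ball293, Valuation.map_neg]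
  exact hx

theorem sub_mem_ball293 {N : ℕ} {x y : k} (hx : x ∈ ball293 k N) (hy : y ∈ ball293 k N) :
    x - y ∈ ball293 k N := by
  rw [sub_eq_add_neg]
  exact add_mem_ball293 hx (neg_mem_ball293 hy)

theorem mul_mem_ball293 {N : ℕ} {a x : k} (ha : Valued.v a ≤ 1) (hx : x ∈ ball293 k N) :
    a * x ∈ ball293 k N := by
  rw [mem_ball293, map_mul]
  calc Valued.v a * Valued.v x ≤ 1 * WithZero.exp (-(N : ℤ)) := mul_le_mul' ha hx
    _ = WithZero.exp (-(N : ℤ)) := one_mul _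

theorem mul_mem_ball293' {N : ℕ} {a x : k} (hx : x ∈ ball293 k N) (ha : Valued.v a ≤ 1) :
    x * a ∈ ball293 k N := by
  rw [mul_comm]
  exact mul_mem_ball293 ha hx

theorem val_le_one_of_mem293 {N : ℕ} {x : k} (hx : x ∈ ball293 k N) : Valued.v x ≤ 1 :=
  le_trans hx (exp_neg_le_one293 N)

/-- `|t| ≤ exp e`, `b ∈ ϖ^{M+e} 𝒪`  ⟹  `t b ∈ ϖ^M 𝒪`. -/
theorem scale_mem_ball293 {M e : ℕ} {t b : k} (ht : Valued.v t ≤ WithZero.exp (e : ℤ))
    (hb : b ∈ ball293 k (M + e)) : t * b ∈ ball293 k M := by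
  rw [mem_ball293, map_mul]
  calc Valued.v t * Valued.v b
      ≤ WithZero.exp (e : ℤ) * WithZero.exp (-((M + e : ℕ) : ℤ)) := mul_le_mul' ht hb
    _ = WithZero.exp (-(M : ℤ)) := by
        rw [← WithZero.exp_add]
        congr 1
        push_cast
        ring

theorem val_le_one_of_sub293 {N : ℕ} {a : k} (h : a - 1 ∈ ball293 k N) : Valued.v a ≤ 1 := by
  have : a = (a - 1) + 1 := by ring
  rw [this]
  refine le_trans (Valuation.map_add _ _ _) (max_le (val_le_one_of_mem293 h) ?_)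
  rw [map_one]

theorem val_eq_one_of_sub293 {N : ℕ} (hN : 1 ≤ N) {a : k} (h : a - 1 ∈ ball293 k N) :
    Valued.v a = 1 := by
  have h1 : Valued.v (a - 1) < 1 := lt_of_le_of_lt h (exp_neg_lt_one293 hN)
  have : a = 1 + (a - 1) := by ring
  rw [this]
  exact Valuation.map_one_add_of_lt _ h1

theorem ne_zero_of_sub293 {N : ℕ} (hN : 1 ≤ N) {a : k} (h : a - 1 ∈ ball293 k N) : a ≠ 0 := by
  intro h0
  have := val_eq_one_of_sub293 hN h
  rw [h0, map_zero] at this
  exact zero_ne_one this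

theorem inv_sub_one_mem293 {N : ℕ} (hN : 1 ≤ N) {a : k} (h : a - 1 ∈ ball293 k N) :
    a⁻¹ - 1 ∈ ball293 k N := by
  have ha : a ≠ 0 := ne_zero_of_sub293 hN h
  have e : a⁻¹ - 1 = -(a - 1) * a⁻¹ := by field_simp; ring
  rw [e]
  refine mul_mem_ball293' (neg_mem_ball293 h) ?_
  rw [map_inv₀, val_eq_one_of_sub293 hN h, inv_one]

theorem isOpen_ballZ293 (j : ℤ) : IsOpen (ballZ293 k j) := by
  rw [isOpen_iff_mem_nhds]
  intro x hx
  have hne : (WithZero.exp j : Γ₀) ≠ 0 := WithZero.exp_ne_zero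
  refine Filter.mem_of_superset (ball_mem_nhds129 x hne) ?_
  intro y hy
  have hy' : Valued.v (y - x) < WithZero.exp j := hy
  have : y = (y - x) + x := by ring
  show Valued.v y ≤ WithZero.exp j
  rw [this]
  exact le_trans (Valuation.map_add _ _ _) (max_le hy'.le hx)

theorem isClosed_ballZ293 (j : ℤ) : IsClosed (ballZ293 k j) := by
  rw [← isOpen_compl_iff, isOpen_iff_mem_nhds]
  intro x hx
  have hx' : WithZero.exp j < Valued.v x := not_le.mp hx
  have hne : Valued.v x ≠ 0 := fun h => by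
    rw [h] at hx'
    exact absurd hx' (not_lt.mpr zero_le)
  refine Filter.mem_of_superset (Valued.locally_const hne) ?_
  intro y hy
  have hy' : Valued.v y = Valued.v x := hy
  show ¬ Valued.v y ≤ WithZero.exp j
  rw [hy']
  exact not_le.mpr hx'

theorem isOpen_ball293 (N : ℕ) : IsOpen (ball293 k N) := isOpen_ballZ293 _

theorem isClosed_ball293 (N : ℕ) : IsClosed (ball293 k N) := isClosed_ballZ293 _

theorem exists_exp_lt293 {g : Γ₀} (hg : g ≠ 0) :
    ∃ N₀ : ℕ, ∀ N : ℕ, N₀ ≤ N → (WithZero.exp (-(N : ℤ)) : Γ₀) < g := by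
  obtain ⟨N₀, hN₀⟩ := WithZero.exists_exp_neg_natCast_lt hg
  exact ⟨N₀, fun N hN => lt_of_le_of_lt (exp_neg_anti293 hN) hN₀⟩

/-- The balls `ϖ^N 𝒪` form a basis of neighbourhoods of `0`. -/
theorem exists_ball_subset293 {W : Set k} (hW : W ∈ 𝓝 (0 : k)) : ∃ N : ℕ, ball293 k N ⊆ W := by
  rw [Valued.mem_nhds] at hW
  obtain ⟨γ, hγ⟩ := hW
  obtain ⟨N, hN⟩ := WithZero.exists_exp_neg_natCast_lt (embedding_ne_zero129 γ)
  refine ⟨N, fun x hx => hγ ?_⟩
  show (Valued.v : Valuation k Γ₀).restrict (x - 0) < γ.1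
  rw [Valuation.restrict_lt_iff_lt_embedding, sub_zero]
  exact lt_of_le_of_lt hx hN

theorem exists_ball_subset_at293 {W : Set k} (a : k) (hW : W ∈ 𝓝 a) :
    ∃ N : ℕ, ∀ x : k, x - a ∈ ball293 k N → x ∈ W := by
  have hc : Continuous fun y : k => y + a := continuous_id.add continuous_const
  have h0 : (fun y : k => y + a) ⁻¹' W ∈ 𝓝 (0 : k) := by
    apply hc.continuousAt
    simpa using hW
  obtain ⟨N, hN⟩ := exists_ball_subset293 h0
  refine ⟨N, fun x hx => ?_⟩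
  have := hN hx
  simpa using this

/-- No small subgroups in the circle: a complex number of absolute value `1` all of whose powers
are at distance `< 1` from `1` is `1`. -/
theorem eq_one_of_pow_near_one293 {z : ℂ} (hz : ‖z‖ = 1) (h : ∀ j : ℕ, ‖z ^ j - 1‖ < 1) :
    z = 1 := by
  by_contra hne
  have hre : ∀ j : ℕ, (1 : ℝ) / 2 < (z ^ j).re := by
    intro j
    have h1 : ‖z ^ j‖ = 1 := by rw [norm_pow, hz, one_pow]
    have h2 : ‖z ^ j - 1‖ ^ 2 < 1 := by
      have := h j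
      have h0 : 0 ≤ ‖z ^ j - 1‖ := norm_nonneg _
      nlinarith
    have h3 : ‖z ^ j - 1‖ ^ 2 = 2 - 2 * (z ^ j).re := by
      have e1 : ‖z ^ j - 1‖ ^ 2 = (z ^ j - 1).re ^ 2 + (z ^ j - 1).im ^ 2 := by
        rw [← Complex.normSq_eq_norm_sq, Complex.normSq_apply]; ring
      have e2 : ‖z ^ j‖ ^ 2 = (z ^ j).re ^ 2 + (z ^ j).im ^ 2 := by
        rw [← Complex.normSq_eq_norm_sq, Complex.normSq_apply]; ring
      rw [h1] at e2
      rw [e1]
      simp only [Complex.sub_re, Complex.sub_im, Complex.one_re, Complex.one_im, sub_zero]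
      nlinarith
    rw [h3] at h2
    linarith
  have hz1 : z - 1 ≠ 0 := sub_ne_zero.mpr hne
  have hpos : 0 < ‖z - 1‖ := norm_pos_iff.mpr hz1
  obtain ⟨n, hn⟩ := exists_nat_gt (4 / ‖z - 1‖)
  have hsum : (∑ j ∈ Finset.range n, z ^ j) = (z ^ n - 1) / (z - 1) := geom_sum_eq hne n
  have hbig : (n : ℝ) / 2 ≤ (∑ j ∈ Finset.range n, z ^ j).re := by
    rw [Complex.re_sum]
    have : ∑ j ∈ Finset.range n, (1 : ℝ) / 2 ≤ ∑ j ∈ Finset.range n, (z ^ j).re :=
      Finset.sum_le_sum fun j _ => (hre j).le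
    simpa [Finset.sum_const, div_eq_mul_inv] using this
  have hsmall : ‖∑ j ∈ Finset.range n, z ^ j‖ ≤ 2 / ‖z - 1‖ := by
    rw [hsum, norm_div]
    apply div_le_div_of_nonneg_right _ hpos.le
    calc ‖z ^ n - 1‖ ≤ ‖z ^ n‖ + ‖(1 : ℂ)‖ := norm_sub_le _ _
      _ = 2 := by rw [norm_pow, hz, one_pow, norm_one]; norm_num
  have hle : (∑ j ∈ Finset.range n, z ^ j).re ≤ ‖∑ j ∈ Finset.range n, z ^ j‖ :=
    Complex.re_le_norm _
  have : (n : ℝ) / 2 ≤ 2 / ‖z - 1‖ := hbig.trans (hle.trans hsmall)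
  have h4 : 4 / ‖z - 1‖ = 2 * (2 / ‖z - 1‖) := by ring
  rw [h4] at hn
  linarith

/-- A continuous unitary additive character of `k` is trivial on a small ball. -/
theorem psi_small293 {ψ : k → ℂ} (hc : Continuous ψ) (hadd : ∀ x y : k, ψ (x + y) = ψ x * ψ y)
    (hn : ∀ x : k, ‖ψ x‖ = 1) : ∃ N : ℕ, ∀ x ∈ ball293 k N, ψ x = 1 := by
  have hne : ∀ x : k, ψ x ≠ 0 := fun x h => by
    have := hn x
    rw [h, norm_zero] at this
    exact zero_ne_one this
  have h0 : ψ 0 = 1 := by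
    have := hadd 0 0
    rw [add_zero] at this
    exact (mul_eq_left₀ (hne 0)).mp this.symm
  have hW : ψ ⁻¹' Metric.ball (1 : ℂ) 1 ∈ 𝓝 (0 : k) := by
    apply hc.continuousAt
    rw [h0]
    exact Metric.ball_mem_nhds _ one_pos
  obtain ⟨N, hN⟩ := exists_ball_subset293 hW
  refine ⟨N, fun x hx => ?_⟩
  have hpow : ∀ j : ℕ, (j : k) * x ∈ ball293 k N ∧ ψ ((j : k) * x) = ψ x ^ j := by
    intro j
    induction j with
    | zero => simp [zero_mem_ball293, h0]
    | succ j ih =>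
      have e : ((j + 1 : ℕ) : k) * x = (j : k) * x + x := by push_cast; ring
      rw [e]
      exact ⟨add_mem_ball293 ih.1 hx, by rw [hadd, ih.2, pow_succ]⟩
  refine eq_one_of_pow_near_one293 (hn x) fun j => ?_
  have := hN (hpow j).1
  rw [Set.mem_preimage, Metric.mem_ball, dist_eq_norm, (hpow j).2] at this
  exact this

/-- A continuous function `η` with values `±1` and `η 1 = 1` is `1` on a small ball around
`1`. -/
theorem eta_small293 {η : k → ℂ} (hcont : ContinuousOn η {a | a ≠ 0}) (h1 : η 1 = 1)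
    (hsq : ∀ a : k, a ≠ 0 → η a = 1 ∨ η a = -1) :
    ∃ N : ℕ, 1 ≤ N ∧ ∀ a : k, a - 1 ∈ ball293 k N → η a = 1 := by
  have hopen : IsOpen {a : k | a ≠ 0} := isOpen_ne
  have hat : ContinuousAt η 1 :=
    (hcont 1 one_ne_zero).continuousAt (hopen.mem_nhds one_ne_zero)
  have hW : η ⁻¹' Metric.ball (1 : ℂ) 1 ∈ 𝓝 (1 : k) := by
    apply hat
    rw [h1]
    exact Metric.ball_mem_nhds _ one_pos
  obtain ⟨N, hN⟩ := exists_ball_subset_at293 1 hW
  refine ⟨max N 1, le_max_right _ _, fun a ha => ?_⟩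
  have ha' : a - 1 ∈ ball293 k N := ball_anti293 (le_max_left _ _) ha
  have hne : a ≠ 0 := ne_zero_of_sub293 (le_max_right N 1) ha
  have := hN a ha'
  rw [Set.mem_preimage, Metric.mem_ball, dist_eq_norm] at this
  rcases hsq a hne with h | h
  · exact h
  · exfalso
    rw [h] at this
    have e : ‖(-1 : ℂ) - 1‖ = 2 := by
      have : (-1 : ℂ) - 1 = -2 := by ring
      rw [this, norm_neg]
      simp
    rw [e] at this
    linarith

/-- Compact sets are bounded. -/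
theorem compact_bounded293 {X : Type} [TopologicalSpace X] {C : Set X} (hC : IsCompact C)
    {f : X → k} (hf : Continuous f) :
    ∃ B : ℕ, ∀ ξ ∈ C, Valued.v (f ξ) ≤ WithZero.exp (B : ℤ) := by
  have hcov : C ⊆ ⋃ B : ℕ, f ⁻¹' ballZ293 k (B : ℤ) := by
    intro ξ _
    rw [Set.mem_iUnion]
    by_cases h0 : Valued.v (f ξ) = 0
    · refine ⟨0, ?_⟩
      show Valued.v (f ξ) ≤ _
      rw [h0]
      exact zero_le
    · refine ⟨(WithZero.log (Valued.v (f ξ))).toNat, ?_⟩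
      show Valued.v (f ξ) ≤ _
      rw [← WithZero.log_le_iff_le_exp h0]
      exact Int.self_le_toNat _
  have hdir : Directed (· ⊆ ·) fun B : ℕ => f ⁻¹' ballZ293 k (B : ℤ) := by
    intro a b
    refine ⟨max a b, ?_, ?_⟩
    · intro ξ hξ
      have h : Valued.v (f ξ) ≤ WithZero.exp (a : ℤ) := hξ
      show Valued.v (f ξ) ≤ _
      refine le_trans h ?_
      rw [WithZero.exp_le_exp]
      exact_mod_cast le_max_left a b
    · intro ξ hξ
      have h : Valued.v (f ξ) ≤ WithZero.exp (b : ℤ) := hξ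
      show Valued.v (f ξ) ≤ _
      refine le_trans h ?_
      rw [WithZero.exp_le_exp]
      exact_mod_cast le_max_right a b
  obtain ⟨B, hB⟩ := hC.elim_directed_cover (fun B : ℕ => f ⁻¹' ballZ293 k (B : ℤ))
    (fun B => (isOpen_ballZ293 (B : ℤ)).preimage hf) hcov hdir
  exact ⟨B, fun ξ hξ => hB hξ⟩

/-- Square roots near `1` (Hensel). -/
theorem sqrt_near_one293 [CompleteSpace k] (h2 : (2 : k) ≠ 0) (M : ℕ) :
    ∃ N₀ : ℕ, ∀ a : k, a - 1 ∈ ball293 k N₀ → ∃ x : k, x - 1 ∈ ball293 k M ∧ x ^ 2 = a := by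
  have hv2 : Valued.v (2 : k) ≠ 0 := (Valuation.ne_zero_iff _).mpr h2
  obtain ⟨N₁, hN₁⟩ := exists_exp_lt293 (pow_ne_zero 2 hv2)
  obtain ⟨N₂, hN₂⟩ := exists_exp_lt293
    (mul_ne_zero (WithZero.exp_ne_zero (a := -(M : ℤ))) hv2)
  refine ⟨max N₁ N₂, fun a ha => ?_⟩
  have ha1 : Valued.v (a - 1) < Valued.v (2 : k) ^ 2 :=
    lt_of_le_of_lt ha (hN₁ _ (le_max_left _ _))
  have ha2 : Valued.v (a - 1) < WithZero.exp (-(M : ℤ)) * Valued.v (2 : k) :=
    lt_of_le_of_lt ha (hN₂ _ (le_max_right _ _))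
  have e1 : (1 : k) ^ 2 - 0 * 1 + -a = -(a - 1) := by ring
  have e2 : (2 : k) * 1 - 0 = 2 := by ring
  obtain ⟨x, hx, hle⟩ := hensel_quad129 (0 : k) (-a) 1 (by
    rw [e1, e2, Valuation.map_neg]
    exact ha1)
  rw [e1, e2, Valuation.map_neg] at hle
  refine ⟨x, ?_, ?_⟩
  · rw [mem_ball293]
    by_contra hcon
    rw [not_le] at hcon
    have : WithZero.exp (-(M : ℤ)) * Valued.v (2 : k) ≤ Valued.v (x - 1) * Valued.v (2 : k) :=
      mul_le_mul' hcon.le le_rfl
    exact absurd (lt_of_le_of_lt (this.trans hle) ha2) (lt_irrefl _)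
  · linear_combination hx

end Fermat.Agent.LT.A2.H293

end
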