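import Mathlib
import Fermat.Agent.LT.A2.H293.Chain
import Fermat.Agent.LT.A2.H293.Val

/-!
# Row LT, tower A2, leaf A2.03.1.1.09 `LocBadOfRepC` (helper293) -- part 4: the level group of
the torus and the initial vector

OFF-MAIN.  A field `k` valued in `ℤᵐ⁰`, `t, n ∈ k` with `|t|, |n| ≤ exp e`, `M ≥ 1`:

* `SM293 k M e = {(a, b) : a ∈ 1 + ϖ^M 𝒪, b ∈ ϖ^{M+e} 𝒪}` (a subgroup of `L^×` in the coordinates
  `1, ω`);
* `tlev293 t n M e` = the matrices `a + b M_ω`, `(a, b) ∈ SM293`;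
* `phi293 k M e` = the indicator function of `SM293`.
-/

set_option autoImplicit false

open Filter Topology

noncomputable section

namespace Fermat.Agent.LT.A2.H293

open Fermat.Agent.LT.T6 Fermat.Agent.LT.H129 Fermat.Agent.LT.A2 Fermat.Agent.LT.A2.WX467

variable {k : Type} [Field k] [Valued k Γ₀]

/-- `{(a, b) : a ∈ 1 + ϖ^M 𝒪, b ∈ ϖ^{M+e} 𝒪}`. -/
def SM293 (k : Type) [Field k] [Valued k Γ₀] (M e : ℕ) : Set (k × k) :=
  {ξ | ξ.1 - 1 ∈ ball293 k M ∧ ξ.2 ∈ ball293 k (M + e)}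

/-- The level group of the torus. -/
def tlev293 (t n : k) (M e : ℕ) : Set (Matrix (Fin 2) (Fin 2) k) :=
  {κ | ∃ ξ : k × k, ξ ∈ SM293 k M e ∧ κ = torMat t n ξ.1 ξ.2}

open scoped Classical in
/-- The indicator function of `SM293`. -/
def phi293 (k : Type) [Field k] [Valued k Γ₀] (M e : ℕ) (ξ : k × k) : ℂ :=
  if ξ ∈ SM293 k M e then 1 else 0

theorem phi_of_mem293 {M e : ℕ} {ξ : k × k} (h : ξ ∈ SM293 k M e) : phi293 k M e ξ = 1 := by
  unfold phi293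
  rw [if_pos h]

theorem phi_of_not_mem293 {M e : ℕ} {ξ : k × k} (h : ξ ∉ SM293 k M e) : phi293 k M e ξ = 0 := by
  unfold phi293
  rw [if_neg h]

theorem mem_of_phi_ne_zero293 {M e : ℕ} {ξ : k × k} (h : phi293 k M e ξ ≠ 0) :
    ξ ∈ SM293 k M e := by
  by_contra hcon
  exact h (phi_of_not_mem293 hcon)

theorem one_zero_mem_SM293 (M e : ℕ) : ((1 : k), (0 : k)) ∈ SM293 k M e := by
  refine ⟨?_, zero_mem_ball293 _⟩
  show (1 : k) - 1 ∈ ball293 k M
  rw [sub_self]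
  exact zero_mem_ball293 _

section Group

variable {t n : k} {M e : ℕ} (ht : Valued.v t ≤ WithZero.exp (e : ℤ))
  (hn : Valued.v n ≤ WithZero.exp (e : ℤ))

include ht hn

theorem SM_mul293 {a b a' b' : k} (h : (a, b) ∈ SM293 k M e) (h' : (a', b') ∈ SM293 k M e) :
    (a * a' - n * b * b', a * b' + b * a' + t * b * b') ∈ SM293 k M e := by
  obtain ⟨h1, h2⟩ := h
  obtain ⟨h1', h2'⟩ := h'
  have h1 : a - 1 ∈ ball293 k M := h1
  have h2 : b ∈ ball293 k (M + e) := h2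
  have h1' : a' - 1 ∈ ball293 k M := h1'
  have h2' : b' ∈ ball293 k (M + e) := h2'
  have va : Valued.v a ≤ 1 := val_le_one_of_sub293 h1
  have va' : Valued.v a' ≤ 1 := val_le_one_of_sub293 h1'
  have vb' : Valued.v b' ≤ 1 := val_le_one_of_mem293 h2'
  have htb : t * b ∈ ball293 k M := scale_mem_ball293 ht h2
  have hnb : n * b ∈ ball293 k M := scale_mem_ball293 hn h2
  refine ⟨?_, ?_⟩
  · show a * a' - n * b * b' - 1 ∈ ball293 k M
    have e1 : a * a' - n * b * b' - 1 = (a - 1) * (a' - 1) + (a - 1) + (a' - 1) - n * b * b' := by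
      ring
    rw [e1]
    refine sub_mem_ball293 (add_mem_ball293 (add_mem_ball293 ?_ h1) h1') ?_
    · exact mul_mem_ball293 (val_le_one_of_mem293 h1) h1'
    · exact mul_mem_ball293' hnb vb'
  · show a * b' + b * a' + t * b * b' ∈ ball293 k (M + e)
    refine add_mem_ball293 (add_mem_ball293 ?_ ?_) ?_
    · exact mul_mem_ball293 va h2'
    · exact mul_mem_ball293' h2 va'
    · exact mul_mem_ball293 (val_le_one_of_mem293 htb) h2'

theorem SM_qf293 {ξ : k × k} (h : ξ ∈ SM293 k M e) : qfL t n ξ - 1 ∈ ball293 k M := by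
  obtain ⟨h1, h2⟩ := h
  have va : Valued.v ξ.1 ≤ 1 := val_le_one_of_sub293 h1
  have vb : Valued.v ξ.2 ≤ 1 := val_le_one_of_mem293 h2
  have htb : t * ξ.2 ∈ ball293 k M := scale_mem_ball293 ht h2
  have hnb : n * ξ.2 ∈ ball293 k M := scale_mem_ball293 hn h2
  have e1 : qfL t n ξ - 1 = (ξ.1 + 1) * (ξ.1 - 1) + ξ.1 * (t * ξ.2) + ξ.2 * (n * ξ.2) := by
    unfold qfL
    ring
  rw [e1]
  refine add_mem_ball293 (add_mem_ball293 ?_ ?_) ?_
  · refine mul_mem_ball293 ?_ h1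
    refine le_trans (Valuation.map_add _ _ _) (max_le va ?_)
    rw [map_one]
  · exact mul_mem_ball293 va htb
  · exact mul_mem_ball293 vb hnb

theorem SM_qf_val293 (hM : 1 ≤ M) {ξ : k × k} (h : ξ ∈ SM293 k M e) :
    Valued.v (qfL t n ξ) = 1 :=
  val_eq_one_of_sub293 hM (SM_qf293 ht hn h)

theorem SM_qf_ne293 (hM : 1 ≤ M) {ξ : k × k} (h : ξ ∈ SM293 k M e) : qfL t n ξ ≠ 0 :=
  ne_zero_of_sub293 hM (SM_qf293 ht hn h)

theorem SM_inv293 (hM : 1 ≤ M) {ξ : k × k} (h : ξ ∈ SM293 k M e) :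
    ((ξ.1 + t * ξ.2) / qfL t n ξ, -ξ.2 / qfL t n ξ) ∈ SM293 k M e := by
  have hQ := SM_qf293 ht hn h
  have hQ1 := SM_qf_val293 ht hn hM h
  have hQ0 := SM_qf_ne293 ht hn hM h
  obtain ⟨h1, h2⟩ := h
  have htb : t * ξ.2 ∈ ball293 k M := scale_mem_ball293 ht h2
  have vQi : Valued.v (qfL t n ξ)⁻¹ ≤ 1 := by rw [map_inv₀, hQ1, inv_one]
  refine ⟨?_, ?_⟩
  · show (ξ.1 + t * ξ.2) / qfL t n ξ - 1 ∈ ball293 k M
    have e1 : (ξ.1 + t * ξ.2) / qfL t n ξ - 1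
        = ((ξ.1 - 1) + t * ξ.2 - (qfL t n ξ - 1)) * (qfL t n ξ)⁻¹ := by
      field_simp
      ring
    rw [e1]
    exact mul_mem_ball293' (sub_mem_ball293 (add_mem_ball293 h1 htb) hQ) vQi
  · show -ξ.2 / qfL t n ξ ∈ ball293 k (M + e)
    rw [div_eq_mul_inv]
    exact mul_mem_ball293' (neg_mem_ball293 h2) vQi

omit ht hn in
theorem torMat_inv293 {a b : k} (hQ : qfL t n (a, b) ≠ 0) :
    (torMat t n a b)⁻¹ = torMat t n ((a + t * b) / qfL t n (a, b)) (-b / qfL t n (a, b)) := by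
  apply Matrix.inv_eq_right_inv
  rw [torMat_mul293, ← torMat_one_zero293 t n]
  have hq : qfL t n (a, b) = a ^ 2 + t * a * b + n * b ^ 2 := rfl
  have hQ' : a ^ 2 + t * a * b + n * b ^ 2 ≠ 0 := hQ
  have e1 : a * ((a + t * b) / qfL t n (a, b)) - n * b * (-b / qfL t n (a, b)) = 1 := by
    have e : a * ((a + t * b) / qfL t n (a, b)) - n * b * (-b / qfL t n (a, b))
        = (a ^ 2 + t * a * b + n * b ^ 2) / qfL t n (a, b) := by ring
    rw [e, ← hq, div_self hQ]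
  have e2 : a * (-b / qfL t n (a, b)) + b * ((a + t * b) / qfL t n (a, b))
      + t * b * (-b / qfL t n (a, b)) = 0 := by
    ring
  rw [e1, e2]

omit ht hn in
theorem det_torMat_qf293 (a b : k) : (torMat t n a b).det = qfL t n (a, b) := by
  rw [det_torMat293]
  rfl

theorem tlev_tor293 (hM : 1 ≤ M) {κ : Matrix (Fin 2) (Fin 2) k} (h : κ ∈ tlev293 t n M e) :
    InTorL t n κ ∧ κ.det ≠ 0 := by
  obtain ⟨ξ, hξ, rfl⟩ := h
  refine ⟨⟨ξ.1, ξ.2, rfl⟩, ?_⟩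
  rw [det_torMat_qf293]
  exact SM_qf_ne293 ht hn hM hξ

theorem tlev_det_val293 (hM : 1 ≤ M) {κ : Matrix (Fin 2) (Fin 2) k}
    (h : κ ∈ tlev293 t n M e) : Valued.v κ.det = 1 := by
  obtain ⟨ξ, hξ, rfl⟩ := h
  rw [det_torMat_qf293]
  exact SM_qf_val293 ht hn hM hξ

theorem tlev_mul293 {κ κ' : Matrix (Fin 2) (Fin 2) k} (h : κ ∈ tlev293 t n M e)
    (h' : κ' ∈ tlev293 t n M e) : κ * κ' ∈ tlev293 t n M e := by
  obtain ⟨ξ, hξ, rfl⟩ := h
  obtain ⟨ξ', hξ', rfl⟩ := h'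
  exact ⟨_, SM_mul293 ht hn (a := ξ.1) (b := ξ.2) (a' := ξ'.1) (b' := ξ'.2) hξ hξ',
    torMat_mul293 t n _ _ _ _⟩

theorem tlev_inv293 (hM : 1 ≤ M) {κ : Matrix (Fin 2) (Fin 2) k} (h : κ ∈ tlev293 t n M e) :
    κ⁻¹ ∈ tlev293 t n M e := by
  obtain ⟨ξ, hξ, rfl⟩ := h
  exact ⟨_, SM_inv293 ht hn hM hξ, torMat_inv293 (SM_qf_ne293 ht hn hM hξ)⟩

omit ht hn in
theorem tlev_one293 : (1 : Matrix (Fin 2) (Fin 2) k) ∈ tlev293 t n M e :=
  ⟨(1, 0), one_zero_mem_SM293 M e, (torMat_one_zero293 t n).symm⟩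

theorem tlev_pow293 {κ : Matrix (Fin 2) (Fin 2) k} (h : κ ∈ tlev293 t n M e) (j : ℕ) :
    κ ^ j ∈ tlev293 t n M e := by
  induction j with
  | zero => rw [pow_zero]; exact tlev_one293
  | succ j ih => rw [pow_succ]; exact tlev_mul293 ht hn ih h

/-- The entries of `κ - 1`, `κ ∈ tlev293`, are in `ϖ^M 𝒪`. -/
theorem tlev_entries293 {κ : Matrix (Fin 2) (Fin 2) k} (h : κ ∈ tlev293 t n M e)
    (i j : Fin 2) : (κ - 1) i j ∈ ball293 k M := by
  obtain ⟨ξ, ⟨h1, h2⟩, rfl⟩ := h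
  have h1 : ξ.1 - 1 ∈ ball293 k M := h1
  have h2 : ξ.2 ∈ ball293 k (M + e) := h2
  have htb : t * ξ.2 ∈ ball293 k M := scale_mem_ball293 ht h2
  have hnb : n * ξ.2 ∈ ball293 k M := scale_mem_ball293 hn h2
  have hb : ξ.2 ∈ ball293 k M := ball_anti293 (Nat.le_add_right M e) h2
  unfold torMat
  fin_cases i <;> fin_cases j
  · simpa using h1
  · simpa using neg_mem_ball293 hnb
  · simpa using hb
  · have : ξ.1 + t * ξ.2 - 1 ∈ ball293 k M := by
      have e1 : ξ.1 + t * ξ.2 - 1 = (ξ.1 - 1) + t * ξ.2 := by ring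
      rw [e1]
      exact add_mem_ball293 h1 htb
    simpa using this

theorem actL_mem293 {κ : Matrix (Fin 2) (Fin 2) k} (h : κ ∈ tlev293 t n M e) {ξ : k × k}
    (hξ : ξ ∈ SM293 k M e) : actL κ ξ ∈ SM293 k M e := by
  obtain ⟨ζ, hζ, rfl⟩ := h
  rw [actL_torMat293]
  exact SM_mul293 ht hn (a := ζ.1) (b := ζ.2) (a' := ξ.1) (b' := ξ.2) hζ hξ

/-- The initial vector is invariant under the level group of the torus. -/
theorem phi_inv293 (hM : 1 ≤ M) {κ : Matrix (Fin 2) (Fin 2) k} (h : κ ∈ tlev293 t n M e)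
    (ξ : k × k) : phi293 k M e (actL κ⁻¹ ξ) = phi293 k M e ξ := by
  have hdet : IsUnit κ.det := (tlev_tor293 ht hn hM h).2.isUnit
  by_cases hξ : ξ ∈ SM293 k M e
  · rw [phi_of_mem293 hξ, phi_of_mem293 (actL_mem293 ht hn (tlev_inv293 ht hn hM h) hξ)]
  · rw [phi_of_not_mem293 hξ, phi_of_not_mem293]
    intro hcon
    apply hξ
    have := actL_mem293 ht hn h hcon
    rw [← actL_mul293, Matrix.mul_nonsing_inv _ hdet, actL_one293] at this
    exact this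

omit ht hn in
theorem smul_eq_actL293 (t n p : k) (ξ : k × k) : p • ξ = actL (torMat t n p 0) ξ := by
  rw [actL_torMat293]
  refine Prod.ext ?_ ?_
  · simp
  · simp

theorem phi_smul293 (hM : 1 ≤ M) {p : k} (hp : p - 1 ∈ ball293 k M) (ξ : k × k) :
    phi293 k M e (p • ξ) = phi293 k M e ξ := by
  have hp0 : p ≠ 0 := ne_zero_of_sub293 hM hp
  have hmem : torMat t n p⁻¹ 0 ∈ tlev293 t n M e :=
    ⟨(p⁻¹, 0), ⟨inv_sub_one_mem293 hM hp, zero_mem_ball293 _⟩, rfl⟩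
  have hinv : (torMat t n p⁻¹ 0)⁻¹ = torMat t n p 0 := by
    apply Matrix.inv_eq_right_inv
    rw [torMat_mul293, ← torMat_one_zero293 t n]
    have e1 : p⁻¹ * p - n * 0 * 0 = 1 := by
      rw [inv_mul_cancel₀ hp0]; ring
    have e2 : p⁻¹ * 0 + 0 * p + t * 0 * 0 = (0 : k) := by ring
    rw [e1, e2]
  have := phi_inv293 ht hn hM hmem ξ
  rw [hinv, ← smul_eq_actL293] at this
  exact this

/-- `supp Φ ∩ T¹ (1, 0) ⊆ Tlev`. -/
theorem phi_orb293 (hM : 1 ≤ M) {κ : Matrix (Fin 2) (Fin 2) k} (hκ : InTorL t n κ)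
    (hdet : κ.det = 1) (h : phi293 k M e (actL κ⁻¹ (1, 0)) ≠ 0) : κ ∈ tlev293 t n M e := by
  obtain ⟨a, b, rfl⟩ := hκ
  have hQ : qfL t n (a, b) = 1 := by rw [← det_torMat_qf293]; exact hdet
  have hQ0 : qfL t n (a, b) ≠ 0 := by rw [hQ]; exact one_ne_zero
  have hmem := mem_of_phi_ne_zero293 h
  rw [torMat_inv293 hQ0, actL_torMat293] at hmem
  have hinv : (torMat t n a b)⁻¹ ∈ tlev293 t n M e := by
    rw [torMat_inv293 hQ0]
    refine ⟨(_, _), ?_, rfl⟩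
    simpa using hmem
  have := tlev_inv293 ht hn hM hinv
  rw [Matrix.nonsing_inv_nonsing_inv _ (by rw [hdet]; exact isUnit_one)] at this
  exact this

end Group

/-- The level group contains a neighbourhood of `1` in the torus. -/
theorem tlev_nhds293 (t n : k) (M e : ℕ) :
    ∃ U ∈ 𝓝 (1 : Matrix (Fin 2) (Fin 2) k), ∀ κ ∈ U, InTorL t n κ → κ ∈ tlev293 t n M e := by
  refine ⟨{κ | κ 0 0 - 1 ∈ ball293 k M ∧ κ 1 0 ∈ ball293 k (M + e)}, ?_, ?_⟩
  · have hc1 : Continuous fun κ : Matrix (Fin 2) (Fin 2) k => κ 0 0 - 1 :=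
      (continuous_id.matrix_elem 0 0).sub continuous_const
    have hc2 : Continuous fun κ : Matrix (Fin 2) (Fin 2) k => κ 1 0 :=
      continuous_id.matrix_elem 1 0
    have ho : IsOpen {κ : Matrix (Fin 2) (Fin 2) k |
        κ 0 0 - 1 ∈ ball293 k M ∧ κ 1 0 ∈ ball293 k (M + e)} :=
      ((isOpen_ball293 M).preimage hc1).inter ((isOpen_ball293 (M + e)).preimage hc2)
    refine ho.mem_nhds ⟨?_, ?_⟩
    · show (1 : Matrix (Fin 2) (Fin 2) k) 0 0 - 1 ∈ ball293 k M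
      simp [zero_mem_ball293]
    · show (1 : Matrix (Fin 2) (Fin 2) k) 1 0 ∈ ball293 k (M + e)
      simp [zero_mem_ball293]
  · rintro κ ⟨h1, h2⟩ ⟨a, b, rfl⟩
    refine ⟨(a, b), ⟨?_, ?_⟩, rfl⟩
    · simpa [torMat] using h1
    · simpa [torMat] using h2

theorem isClosed_SM293 (M e : ℕ) : IsClosed (SM293 k M e) := by
  have hc1 : Continuous fun ξ : k × k => ξ.1 - 1 := continuous_fst.sub continuous_const
  exact ((isClosed_ball293 M).preimage hc1).inter ((isClosed_ball293 (M + e)).preimage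
    continuous_snd)

theorem isOpen_SM293 (M e : ℕ) : IsOpen (SM293 k M e) := by
  have hc1 : Continuous fun ξ : k × k => ξ.1 - 1 := continuous_fst.sub continuous_const
  exact ((isOpen_ball293 M).preimage hc1).inter ((isOpen_ball293 (M + e)).preimage
    continuous_snd)

theorem isCompact_SM293 (hO : IsCompact (ball293 k 0)) (M e : ℕ) : IsCompact (SM293 k M e) := by
  refine IsCompact.of_isClosed_subset (hO.prod hO) (isClosed_SM293 M e) ?_
  rintro ξ ⟨h1, h2⟩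
  refine ⟨?_, ?_⟩
  · show Valued.v ξ.1 ≤ WithZero.exp (-((0 : ℕ) : ℤ))
    have := val_le_one_of_sub293 h1
    simpa using this
  · show Valued.v ξ.2 ≤ WithZero.exp (-((0 : ℕ) : ℤ))
    have := val_le_one_of_mem293 h2
    simpa using this

theorem isLocallyConstant_phi293 (M e : ℕ) : IsLocallyConstant (phi293 k M e) := by
  rw [IsLocallyConstant.iff_exists_open]
  intro ξ
  by_cases hξ : ξ ∈ SM293 k M e
  · refine ⟨SM293 k M e, isOpen_SM293 M e, hξ, fun y hy => ?_⟩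
    rw [phi_of_mem293 hy, phi_of_mem293 hξ]
  · refine ⟨(SM293 k M e)ᶜ, (isClosed_SM293 M e).isOpen_compl, hξ, fun y hy => ?_⟩
    rw [phi_of_not_mem293 hy, phi_of_not_mem293 hξ]

theorem hasCompactSupport_phi293 (hO : IsCompact (ball293 k 0)) (M e : ℕ) :
    HasCompactSupport (phi293 k M e) :=
  HasCompactSupport.intro (isCompact_SM293 hO M e) fun _ hξ => phi_of_not_mem293 hξ

theorem phi_pos293 (M e : ℕ) :
    (∀ ξ : k × k, 0 ≤ (phi293 k M e ξ).re ∧ (phi293 k M e ξ).im = 0) ∧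
      phi293 k M e (1, 0) ≠ 0 := by
  refine ⟨fun ξ => ?_, ?_⟩
  · by_cases hξ : ξ ∈ SM293 k M e
    · rw [phi_of_mem293 hξ]; simp
    · rw [phi_of_not_mem293 hξ]; simp
  · rw [phi_of_mem293 (one_zero_mem_SM293 M e)]
    exact one_ne_zero

end Fermat.Agent.LT.A2.H293

end
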