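import Mathlib
import Fermat.Agent.LT.A2.H293.TorusLev

/-!
# Row LT, tower A2, leaf A2.03.1.1.09 `LocBadOfRepC` (helper293) -- part 5: the local core

OFF-MAIN.  A complete field `k` valued in `ℤᵐ⁰` with compact ring of integers, `2 ≠ 0`:
from the local Weil representation (`hrep`: every Schwartz--Bruhat function is the initial vector
of a family with the local axioms) and uniqueness (`LocUniqC`), the family `F` with initial vector
`phi293 k M e` is right invariant under the pairs `(k₀, κ)`, `k₀ ≡ 1` modulo `ϖ^N`,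
`κ ∈ tlev293 t n M e`, `det k₀ = det κ`, and every `det k₀` is the determinant of some `κ`.
-/

set_option autoImplicit false

open Filter Topology MeasureTheory

noncomputable section

namespace Fermat.Agent.LT.A2.H293

open Fermat.Agent.LT.T6 Fermat.Agent.LT.H129 Fermat.Agent.LT.A2 Fermat.Agent.LT.A2.WX467

variable {k : Type} [Field k] [Valued k Γ₀]

theorem continuous_qfL293 {k : Type} [Field k] [TopologicalSpace k] [IsTopologicalRing k]
    (t n : k) : Continuous (qfL t n) := by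
  unfold qfL
  fun_prop

/-- **The local core.** -/
theorem finCore293 [CompleteSpace k] (huniq : LocUniqC) (hO : IsCompact (ball293 k 0))
    (h2 : (2 : k) ≠ 0) {absv : k → ℝ} (hpos : ∀ a : k, a ≠ 0 → 0 < absv a)
    (habs : ∀ a : k, Valued.v a = 1 → absv a = 1) {t n : k} {ψ : k → ℂ}
    {μ : @Measure k (borel k)} {γ : ℂ} {η : k → ℂ}
    (hrep : ∀ Φ : k × k → ℂ, IsLocallyConstant Φ → HasCompactSupport Φ →
      ∃ F : Matrix (Fin 2) (Fin 2) k → Matrix (Fin 2) (Fin 2) k → k × k → ℂ,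
        LocAx absv t n ψ μ γ η F ∧
          (∀ g m : Matrix (Fin 2) (Fin 2) k, AdmL t n g m →
            IsLocallyConstant (F g m) ∧ HasCompactSupport (F g m)) ∧
          F 1 1 = Φ)
    {M e : ℕ} (hM : 1 ≤ M) (ht : Valued.v t ≤ WithZero.exp (e : ℤ))
    (hn : Valued.v n ≤ WithZero.exp (e : ℤ)) :
    ∃ (N : ℕ) (F : Matrix (Fin 2) (Fin 2) k → Matrix (Fin 2) (Fin 2) k → k × k → ℂ),
      LocAx absv t n ψ μ γ η F ∧
        (∀ g m : Matrix (Fin 2) (Fin 2) k, AdmL t n g m →
          IsLocallyConstant (F g m) ∧ HasCompactSupport (F g m)) ∧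
        F 1 1 = phi293 k M e ∧
        (∀ k₀ κ : Matrix (Fin 2) (Fin 2) k, (∀ i j : Fin 2, (k₀ - 1) i j ∈ ball293 k N) →
          κ ∈ tlev293 t n M e → k₀.det = κ.det →
          ∀ (g m : Matrix (Fin 2) (Fin 2) k) (ξ : k × k), AdmL t n g m →
            F (g * k₀) (m * κ) ξ = F g m ξ) ∧
        ∀ k₀ : Matrix (Fin 2) (Fin 2) k, (∀ i j : Fin 2, (k₀ - 1) i j ∈ ball293 k N) →
          ∃ κ ∈ tlev293 t n M e, κ.det = k₀.det := by
  obtain ⟨F, hax, hsb, hF11⟩ := hrep (phi293 k M e) (isLocallyConstant_phi293 M e)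
    (hasCompactSupport_phi293 hO M e)
  obtain ⟨Nψ, hNψ⟩ := psi_small293 hax.psi_char.1 hax.psi_char.2.1 hax.psi_char.2.2
  have hη1 : η 1 = 1 := by
    have := hax.eta_norm 1 (inTorL_one293 t n) (by rw [Matrix.det_one]; exact one_ne_zero)
    rw [Matrix.det_one] at this
    exact this
  obtain ⟨Nη, _, hNη⟩ := eta_small293 hax.eta_cont hη1 hax.eta_sq
  have hdW : ((!![0, 1; -1, 0] : Matrix (Fin 2) (Fin 2) k) * 1).det = 1 := by
    rw [Matrix.mul_one, Matrix.det_fin_two_of]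
    ring
  have hcs : IsCompact (tsupport (F (!![0, 1; -1, 0] * 1) 1)) :=
    (hsb _ 1 (admL_one293 t n hdW)).2
  obtain ⟨B, hB⟩ := compact_bounded293 hcs (continuous_qfL293 t n)
  obtain ⟨Ns, hNs⟩ := sqrt_near_one293 h2 M
  set N : ℕ := max (max M (Nψ + B)) (max Nη Ns) with hN
  have hNM : M ≤ N := le_trans (le_max_left _ _) (le_max_left _ _)
  have hNψB : Nψ + B ≤ N := le_trans (le_max_right _ _) (le_max_left _ _)
  have hNNη : Nη ≤ N := le_trans (le_max_left _ _) (le_max_right _ _)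
  have hNNs : Ns ≤ N := le_trans (le_max_right _ _) (le_max_right _ _)
  have hN1 : 1 ≤ N := le_trans hM hNM
  refine ⟨N, F, hax, hsb, hF11, ?_, ?_⟩
  · -- right invariance
    intro k₀ κ hk₀ hκ hdet
    have hκT := tlev_tor293 ht hn hM hκ
    have hδ : Valued.v κ.det = 1 := tlev_det_val293 ht hn hM hκ
    have hp1 : k₀ 0 0 - 1 ∈ ball293 k N := by simpa using hk₀ 0 0
    have hq : k₀ 0 1 ∈ ball293 k N := by simpa using hk₀ 0 1
    have hr : k₀ 1 0 ∈ ball293 k N := by simpa using hk₀ 1 0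
    have hp0 : k₀ 0 0 ≠ 0 := ne_zero_of_sub293 hN1 hp1
    have hvp : Valued.v (k₀ 0 0) = 1 := val_eq_one_of_sub293 hN1 hp1
    refine rightInv293 huniq hpos hax hκT.1 hdet hκT.2 (habs _ hδ) ?_ ?_
    · refine chain293 hax hp0 ?_ ?_ ?_ ?_
      · have h0 : k₀.det = k₀ 0 0 * k₀ 1 1 - k₀ 0 1 * k₀ 1 0 := Matrix.det_fin_two k₀
        have e1 : k₀ 0 0 * (κ.det⁻¹ * k₀ 1 1) - k₀ 0 1 * (κ.det⁻¹ * k₀ 1 0)
            = κ.det⁻¹ * (k₀ 0 0 * k₀ 1 1 - k₀ 0 1 * k₀ 1 0) := by ring
        rw [e1, ← h0, hdet, inv_mul_cancel₀ hκT.2]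
      · intro ξ
        rw [hF11]
        by_cases hξ : ξ ∈ SM293 k M e
        · have hQ : Valued.v (qfL t n ξ) = 1 := SM_qf_val293 ht hn hM hξ
          have hmem : k₀ 0 1 / k₀ 0 0 * qfL t n ξ ∈ ball293 k Nψ := by
            refine ball_anti293 (le_trans (Nat.le_add_right _ _) hNψB) ?_
            rw [mem_ball293, map_mul, map_div₀, hvp, hQ, div_one, mul_one]
            exact hq
          rw [hNψ _ hmem, one_mul]
        · rw [phi_of_not_mem293 hξ, mul_zero]
      · intro ξ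
        rw [hF11, hNη _ (ball_anti293 hNNη hp1), habs _ hvp,
          phi_smul293 ht hn hM (ball_anti293 hNM hp1)]
        simp
      · intro ξ
        by_cases hξ : F (!![0, 1; -1, 0] * 1) 1 ξ = 0
        · rw [hξ, mul_zero]
        · have hξ' : ξ ∈ tsupport (F (!![0, 1; -1, 0] * 1) 1) :=
            subset_tsupport _ (Function.mem_support.mpr hξ)
          have hQ := hB ξ hξ'
          have hmem : -(κ.det⁻¹ * k₀ 1 0 / k₀ 0 0) * qfL t n ξ ∈ ball293 k Nψ := by
            rw [mem_ball293, map_mul, Valuation.map_neg, map_div₀, map_mul, map_inv₀, hδ, hvp,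
              inv_one, one_mul, div_one]
            calc Valued.v (k₀ 1 0) * Valued.v (qfL t n ξ)
                ≤ WithZero.exp (-(N : ℤ)) * WithZero.exp (B : ℤ) := mul_le_mul' hr hQ
              _ = WithZero.exp (-(N : ℤ) + (B : ℤ)) := (WithZero.exp_add _ _).symm
              _ ≤ WithZero.exp (-(Nψ : ℤ)) := by
                  rw [WithZero.exp_le_exp]
                  omega
          rw [hNψ _ hmem, one_mul]
    · intro ξ
      rw [hF11]
      exact phi_inv293 ht hn hM hκ ξ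
  · -- the determinants are norms
    intro k₀ hk₀
    have hp1 : k₀ 0 0 - 1 ∈ ball293 k N := by simpa using hk₀ 0 0
    have hq : k₀ 0 1 ∈ ball293 k N := by simpa using hk₀ 0 1
    have hr : k₀ 1 0 ∈ ball293 k N := by simpa using hk₀ 1 0
    have hs1 : k₀ 1 1 - 1 ∈ ball293 k N := by simpa using hk₀ 1 1
    have hd : k₀.det - 1 ∈ ball293 k N := by
      have e1 : k₀.det - 1 = (k₀ 0 0 - 1) * (k₀ 1 1 - 1) + (k₀ 0 0 - 1) + (k₀ 1 1 - 1)
          - k₀ 0 1 * k₀ 1 0 := by
        rw [Matrix.det_fin_two]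
        ring
      rw [e1]
      refine sub_mem_ball293 (add_mem_ball293 (add_mem_ball293 ?_ hp1) hs1) ?_
      · exact mul_mem_ball293 (val_le_one_of_mem293 hp1) hs1
      · exact mul_mem_ball293 (val_le_one_of_mem293 hq) hr
    obtain ⟨x, hx, hx2⟩ := hNs _ (ball_anti293 hNNs hd)
    refine ⟨torMat t n x 0, ⟨(x, 0), ⟨hx, zero_mem_ball293 _⟩, rfl⟩, ?_⟩
    rw [det_torMat293, ← hx2]
    ring

end Fermat.Agent.LT.A2.H293

end
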