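import Mathlib
import Fermat.Agent.LT.H11.LC
import Fermat.Agent.LT.A2.H293.Core
import Fermat.Agent.LT.A2.H293.LocEmb

/-!
# Row LT, tower A2, leaf A2.03.1.1.09 `LocBadOfRepC` (helper293) -- part 6: the completion `K_v`

OFF-MAIN.  The facts on `K_v = v.adicCompletion K` used by the local core: `𝒪_v` is compact,
`2 ≠ 0`, `‖a‖ = 1` for units, the closure of an ideal `𝔫 ⊆ v^N` is contained in `ϖ^N 𝒪_v`.
-/

set_option autoImplicit false

open IsDedekindDomain NumberField Filter Topology

noncomputable section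

namespace Fermat.Agent.LT.A2.H293

open Fermat.Agent.LT.T6 Fermat.Agent.LT.H129 Fermat.Agent.LT.H556 Fermat.Agent.LT.A2
  Fermat.Agent.LT.A2.WX467

variable {K : Type} [Field K] [NumberField K] (v : HeightOneSpectrum (𝓞 K))

theorem isCompact_ball_zero293 : IsCompact (ball293 (v.adicCompletion K) 0) := by
  have h := Fermat.Agent.LT.H11.LC.isCompact_integers_h11 K v
  have e : ball293 (v.adicCompletion K) 0
      = (v.adicCompletionIntegers K : Set (v.adicCompletion K)) := by
    ext x
    show Valued.v x ≤ WithZero.exp (-((0 : ℕ) : ℤ)) ↔ x ∈ v.adicCompletionIntegers K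
    rw [HeightOneSpectrum.mem_adicCompletionIntegers]
    simp
  rw [e]
  exact h

theorem two_ne_zero293 : (2 : v.adicCompletion K) ≠ 0 := by
  have h : algebraMap K (v.adicCompletion K) 2 ≠ 0 := by
    rw [Ne, map_eq_zero]
    exact two_ne_zero
  rwa [map_ofNat] at h

theorem norm_eq_one_of_val293 (a : v.adicCompletion K) (h : Valued.v a = 1) : ‖a‖ = 1 := by
  apply le_antisymm
  · rw [Valued.toNormedField.norm_le_one_iff, h]
  · rw [Valued.toNormedField.one_le_norm_iff, h]

theorem exists_le_exp293 (x : Γ₀) : ∃ B : ℕ, x ≤ WithZero.exp (B : ℤ) := by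
  by_cases h0 : x = 0
  · exact ⟨0, by rw [h0]; exact zero_le⟩
  · refine ⟨(WithZero.log x).toNat, ?_⟩
    rw [← WithZero.log_le_iff_le_exp h0]
    exact Int.self_le_toNat _

theorem exists_bound293 (t n : v.adicCompletion K) :
    ∃ e : ℕ, Valued.v t ≤ WithZero.exp (e : ℤ) ∧ Valued.v n ≤ WithZero.exp (e : ℤ) := by
  obtain ⟨e1, h1⟩ := exists_le_exp293 (Valued.v t)
  obtain ⟨e2, h2⟩ := exists_le_exp293 (Valued.v n)
  refine ⟨max e1 e2, le_trans h1 ?_, le_trans h2 ?_⟩
  · rw [WithZero.exp_le_exp]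
    exact_mod_cast le_max_left e1 e2
  · rw [WithZero.exp_le_exp]
    exact_mod_cast le_max_right e1 e2

/-- The closure of an ideal contained in `v^N` is contained in `ϖ^N 𝒪_v`. -/
theorem idealClosure_subset_ball293 {𝔫 : Ideal (𝓞 K)} {N : ℕ} (h : 𝔫 ≤ v.asIdeal ^ N) :
    A0.idealClosure 𝔫 v ⊆ ball293 (v.adicCompletion K) N := by
  unfold A0.idealClosure
  refine closure_minimal ?_ (isClosed_ball293 N)
  rintro _ ⟨x, hx, rfl⟩
  show Valued.v (algebraMap K (v.adicCompletion K) (algebraMap (𝓞 K) K x))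
    ≤ WithZero.exp (-(N : ℤ))
  have e : algebraMap K (v.adicCompletion K) (algebraMap (𝓞 K) K x)
      = ((algebraMap (𝓞 K) K x : K) : v.adicCompletion K) := rfl
  rw [e, HeightOneSpectrum.valuedAdicCompletion_eq_valuation',
    HeightOneSpectrum.valuation_of_algebraMap, HeightOneSpectrum.intValuation_le_pow_iff_mem]
  exact h hx

end Fermat.Agent.LT.A2.H293

end
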