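import Mathlib
import Fermat.Agent.LT.A2.H293.Cont
import Fermat.Agent.LT.A2.H293.Place

/-!
# Row LT, tower A2, leaf A2.03.1.1.09 `LocBadOfRepC` (helper293) -- part 8: `χT` is trivial on a
small level group of the torus

OFF-MAIN.  `chi_triv293`: for a torus character `χT` (continuous on `T(𝔸_K)`, of finite order) and
a finite place `v` there is `M ≥ 1` such that `χT κ = 1` for every `κ` supported at `v` whose
component at `v` is in `tlev293 t n M e`.
-/

set_option autoImplicit false

open IsDedekindDomain NumberField Filter Topology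

noncomputable section

namespace Fermat.Agent.LT.A2.H293

open Fermat.Agent.LT.T6 Fermat.Agent.LT.H129 Fermat.Agent.LT.H556 Fermat.Agent.LT.A2
  Fermat.Agent.LT.A2.WX467

variable {K : Type} [Field K] [NumberField K]

theorem torMat_map293 {R S : Type} [CommRing R] [CommRing S] (f : R →+* S) (t n a b : R) :
    (torMat t n a b).map f = torMat (f t) (f n) (f a) (f b) := by
  unfold torMat
  ext i j
  fin_cases i <;> fin_cases j <;> simp

open scoped Classical in
/-- A matrix supported at `v` whose component at `v` is in the local torus is in the adelic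
torus. -/
theorem inTorus_locFin293 (v : HeightOneSpectrum (𝓞 K)) (t n : K)
    (x : GL (Fin 2) (v.adicCompletion K))
    (hx : InTorL (algebraMap K (v.adicCompletion K) t) (algebraMap K (v.adicCompletion K) n)
      (x : Matrix (Fin 2) (Fin 2) (v.adicCompletion K))) :
    InTorus t n (locFin129 v x) := by
  obtain ⟨a, b, hab⟩ := hx
  refine ⟨((1 : InfiniteAdeleRing K), finSingle129 v true a),
    ((0 : InfiniteAdeleRing K), finSingle129 v false b), ?_⟩
  rw [coe_locFin129, hab]
  apply adeleMatrix_ext129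
  · intro w
    rw [locMat129_map_inf, torMat_map293]
    have e1 : evI129 w ((1 : InfiniteAdeleRing K), finSingle129 v true a) = 1 := rfl
    have e2 : evI129 w ((0 : InfiniteAdeleRing K), finSingle129 v false b) = 0 := rfl
    rw [e1, e2, torMat_one_zero293]
  · intro v'
    rw [torMat_map293]
    by_cases h : v' = v
    · subst h
      rw [locMat129_map_same]
      have e1 : evF129 v' ((1 : InfiniteAdeleRing K), finSingle129 v' true a) = a :=
        finSingle129_same v' true a
      have e2 : evF129 v' ((0 : InfiniteAdeleRing K), finSingle129 v' false b) = b :=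
        finSingle129_same v' false b
      rw [e1, e2]
      rfl
    · rw [locMat129_map_of_ne v _ h]
      have e1 : evF129 v' ((1 : InfiniteAdeleRing K), finSingle129 v true a) = 1 := by
        have := finSingle129_of_ne v true a h
        simpa using this
      have e2 : evF129 v' ((0 : InfiniteAdeleRing K), finSingle129 v false b) = 0 := by
        have := finSingle129_of_ne v false b h
        simpa using this
      rw [e1, e2, torMat_one_zero293]

/-- The congruence subgroups form a basis of neighbourhoods of `1` in `M₂(k)`. -/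
theorem exists_ball_subset_matrix293 {k : Type} [Field k] [Valued k Γ₀]
    {W : Set (Matrix (Fin 2) (Fin 2) k)} (hW : W ∈ 𝓝 (1 : Matrix (Fin 2) (Fin 2) k)) :
    ∃ M : ℕ, ∀ g : Matrix (Fin 2) (Fin 2) k, (∀ i j : Fin 2, (g - 1) i j ∈ ball293 k M) →
      g ∈ W := by
  let φ : (k × k) × (k × k) → Matrix (Fin 2) (Fin 2) k :=
    fun p => !![p.1.1, p.1.2; p.2.1, p.2.2]
  have hφ : Continuous φ := by
    refine continuous_matrix fun i j => ?_
    fin_cases i <;> fin_cases j
    · exact continuous_fst.fst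
    · exact continuous_fst.snd
    · exact continuous_snd.fst
    · exact continuous_snd.snd
  have h1 : φ ((1, 0), (0, 1)) = 1 := by
    ext i j
    fin_cases i <;> fin_cases j <;> simp [φ]
  have hpre : φ ⁻¹' W ∈ 𝓝 (((1 : k), (0 : k)), ((0 : k), (1 : k))) := by
    apply hφ.continuousAt
    rw [h1]
    exact hW
  rw [mem_nhds_prod_iff] at hpre
  obtain ⟨U1, hU1, U2, hU2, hU⟩ := hpre
  rw [mem_nhds_prod_iff] at hU1 hU2
  obtain ⟨A, hA, B, hB, hAB⟩ := hU1
  obtain ⟨C, hC, D, hD, hCD⟩ := hU2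
  obtain ⟨Na, hNa⟩ := exists_ball_subset_at293 (1 : k) hA
  obtain ⟨Nb, hNb⟩ := exists_ball_subset_at293 (0 : k) hB
  obtain ⟨Nc, hNc⟩ := exists_ball_subset_at293 (0 : k) hC
  obtain ⟨Nd, hNd⟩ := exists_ball_subset_at293 (1 : k) hD
  have l1 : Na ≤ max (max Na Nb) (max Nc Nd) := le_trans (le_max_left _ _) (le_max_left _ _)
  have l2 : Nb ≤ max (max Na Nb) (max Nc Nd) := le_trans (le_max_right _ _) (le_max_left _ _)
  have l3 : Nc ≤ max (max Na Nb) (max Nc Nd) := le_trans (le_max_left _ _) (le_max_right _ _)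
  have l4 : Nd ≤ max (max Na Nb) (max Nc Nd) := le_trans (le_max_right _ _) (le_max_right _ _)
  refine ⟨max (max Na Nb) (max Nc Nd), ?_⟩
  generalize max (max Na Nb) (max Nc Nd) = N at l1 l2 l3 l4
  intro g hg
  have g00 : g 0 0 - 1 ∈ ball293 k N := by simpa using hg 0 0
  have g01 : g 0 1 - 0 ∈ ball293 k N := by simpa using hg 0 1
  have g10 : g 1 0 - 0 ∈ ball293 k N := by simpa using hg 1 0
  have g11 : g 1 1 - 1 ∈ ball293 k N := by simpa using hg 1 1
  have ha : g 0 0 ∈ A := hNa _ (ball_anti293 l1 g00)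
  have hb : g 0 1 ∈ B := hNb _ (ball_anti293 l2 g01)
  have hc : g 1 0 ∈ C := hNc _ (ball_anti293 l3 g10)
  have hd : g 1 1 ∈ D := hNd _ (ball_anti293 l4 g11)
  have hmem : ((g 0 0, g 0 1), (g 1 0, g 1 1)) ∈ φ ⁻¹' W :=
    hU (Set.mk_mem_prod (hAB (Set.mk_mem_prod ha hb)) (hCD (Set.mk_mem_prod hc hd)))
  have hg' : φ ((g 0 0, g 0 1), (g 1 0, g 1 1)) = g := by
    ext i j
    fin_cases i <;> fin_cases j <;> simp [φ]
  have : φ ((g 0 0, g 0 1), (g 1 0, g 1 1)) ∈ W := hmem
  rw [hg'] at this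
  exact this

/-- The congruence subgroups form a basis of neighbourhoods of `1` in `GL₂(k)`. -/
theorem exists_ball_subset_GL293 {k : Type} [Field k] [Valued k Γ₀]
    {V : Set (GL (Fin 2) k)} (hV : V ∈ 𝓝 (1 : GL (Fin 2) k)) :
    ∃ M : ℕ, ∀ x : GL (Fin 2) k,
      (∀ i j : Fin 2, ((x : Matrix (Fin 2) (Fin 2) k) - 1) i j ∈ ball293 k M) →
      (∀ i j : Fin 2, (((x⁻¹ : GL (Fin 2) k) : Matrix (Fin 2) (Fin 2) k) - 1) i j
        ∈ ball293 k M) → x ∈ V := by
  rw [Units.isInducing_embedProduct.nhds_eq_comap, Filter.mem_comap] at hV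
  obtain ⟨W, hW, hWV⟩ := hV
  have hW' : W ∈ 𝓝 ((1 : Matrix (Fin 2) (Fin 2) k), MulOpposite.op
      (1 : Matrix (Fin 2) (Fin 2) k)) := by
    simpa using hW
  rw [mem_nhds_prod_iff] at hW'
  obtain ⟨W1, hW1, W2, hW2, hW12⟩ := hW'
  have hW2' : MulOpposite.op ⁻¹' W2 ∈ 𝓝 (1 : Matrix (Fin 2) (Fin 2) k) :=
    MulOpposite.continuous_op.continuousAt hW2
  obtain ⟨M1, hM1⟩ := exists_ball_subset_matrix293 hW1
  obtain ⟨M2, hM2⟩ := exists_ball_subset_matrix293 hW2'
  refine ⟨max M1 M2, fun x hx hx' => hWV ?_⟩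
  have h1 : (x : Matrix (Fin 2) (Fin 2) k) ∈ W1 :=
    hM1 _ fun i j => ball_anti293 (le_max_left _ _) (hx i j)
  have h2 : ((x⁻¹ : GL (Fin 2) k) : Matrix (Fin 2) (Fin 2) k) ∈ MulOpposite.op ⁻¹' W2 :=
    hM2 _ fun i j => ball_anti293 (le_max_right _ _) (hx' i j)
  exact hW12 (Set.mk_mem_prod h1 h2)

/-- **`χT` is trivial on a small level group of the torus at `v`.** -/
theorem chi_triv293 (v : HeightOneSpectrum (𝓞 K)) {t n : K} {χT : A0.G K → ℂ}
    (hχ : IsTorusChar t n χT) {e : ℕ}
    (ht : Valued.v (algebraMap K (v.adicCompletion K) t) ≤ WithZero.exp (e : ℤ))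
    (hn : Valued.v (algebraMap K (v.adicCompletion K) n) ≤ WithZero.exp (e : ℤ)) :
    ∃ M : ℕ, 1 ≤ M ∧ ∀ κ : A0.G K, A0.IsLocalAtFin v κ →
      A0.finComp v κ ∈ tlev293 (algebraMap K (v.adicCompletion K) t)
        (algebraMap K (v.adicCompletion K) n) M e → χT κ = 1 := by
  -- a neighbourhood of `1` on which `χT` is close to `1`
  have h1T : InTorus t n (1 : A0.G K) := by
    have := inTorus_locFin293 v t n 1 (by
      rw [Units.val_one]
      exact inTorL_one293 _ _)
    rwa [map_one] at this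
  have hcw := hχ.cont 1 h1T
  have hball : χT ⁻¹' Metric.ball (1 : ℂ) 1 ∈ 𝓝[{m | InTorus t n m}] (1 : A0.G K) := by
    apply hcw
    rw [hχ.one]
    exact Metric.ball_mem_nhds _ one_pos
  rw [mem_nhdsWithin_iff_exists_mem_nhds_inter] at hball
  obtain ⟨U, hU, hUT⟩ := hball
  have hV : (locFin129 (K := K) v) ⁻¹' U ∈ 𝓝 (1 : GL (Fin 2) (v.adicCompletion K)) := by
    apply (continuous_locFin293 v).continuousAt
    rw [map_one]
    exact hU
  obtain ⟨M₀, hM₀⟩ := exists_ball_subset_GL293 hV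
  refine ⟨max M₀ 1, le_max_right _ _, fun κ hloc hκ => ?_⟩
  have hM1 : 1 ≤ max M₀ 1 := le_max_right _ _
  set x : GL (Fin 2) (v.adicCompletion K) := finCompHom129 v κ with hx
  have hxc : (x : Matrix (Fin 2) (Fin 2) (v.adicCompletion K)) = A0.finComp v κ :=
    coe_finCompHom129 v κ
  have hκx : κ = locFin129 v x := eq_locFin129_of_isLocalAtFin hloc
  -- the powers
  have hpowmem : ∀ j : ℕ, ((x ^ j : GL (Fin 2) (v.adicCompletion K)) :
      Matrix (Fin 2) (Fin 2) (v.adicCompletion K)) ∈ tlev293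
        (algebraMap K (v.adicCompletion K) t) (algebraMap K (v.adicCompletion K) n)
        (max M₀ 1) e := by
    intro j
    rw [Units.val_pow_eq_pow_val, hxc]
    exact tlev_pow293 ht hn hκ j
  have hpowU : ∀ j : ℕ, locFin129 v (x ^ j) ∈ U := by
    intro j
    refine hM₀ (x ^ j) (fun i i' => ?_) (fun i i' => ?_)
    · exact ball_anti293 (le_max_left _ _) (tlev_entries293 ht hn (hpowmem j) i i')
    · have hinv := tlev_inv293 ht hn hM1 (hpowmem j)
      rw [← Matrix.coe_units_inv] at hinv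
      exact ball_anti293 (le_max_left _ _) (tlev_entries293 ht hn hinv i i')
  have hpowT : ∀ j : ℕ, InTorus t n (locFin129 v (x ^ j)) := fun j =>
    inTorus_locFin293 v t n (x ^ j) (tlev_tor293 ht hn hM1 (hpowmem j)).1
  have hχpow : ∀ j : ℕ, χT (locFin129 v (x ^ j)) = χT κ ^ j := by
    intro j
    induction j with
    | zero => rw [pow_zero, pow_zero, map_one, hχ.one]
    | succ j ih =>
      have hT1 : InTorus t n (locFin129 v x) := by
        have := hpowT 1
        rwa [pow_one] at this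
      rw [pow_succ, map_mul, hχ.mul _ _ (hpowT j) hT1, ih, ← hκx, pow_succ]
  have hnorm : ‖χT κ‖ = 1 := by
    obtain ⟨m, hm, hfin⟩ := hχ.fin_order
    have hT1 : InTorus t n κ := by
      have := hpowT 1
      rwa [pow_one, ← hκx] at this
    have := hfin κ hT1
    have h2 : ‖χT κ‖ ^ m = 1 := by rw [← norm_pow, this, norm_one]
    exact (pow_eq_one_iff_of_nonneg (norm_nonneg _) (Nat.pos_iff_ne_zero.mp hm)).mp h2
  refine eq_one_of_pow_near_one293 hnorm fun j => ?_
  have hmem : locFin129 v (x ^ j) ∈ χT ⁻¹' Metric.ball (1 : ℂ) 1 := hUT ⟨hpowU j, hpowT j⟩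
  rw [Set.mem_preimage, Metric.mem_ball, dist_eq_norm, hχpow j] at hmem
  exact hmem

end Fermat.Agent.LT.A2.H293

end
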