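import Mathlib
import Fermat.Agent.LT.A2.H293.ChiTriv

/-!
# Row LT, tower A2, leaf A2.03.1.1.09 `WX467.LocBadOfRepC` (helper293) -- the top

OFF-MAIN.  `locBadOfRepC293 : LocNontrivC293 → WX467.LocBadOfRepC`.

The statement `WX467.LocBadOfRepC` (helper467 `DataSpec.lean`) is proved from the local Weil
representation (`LocRepC`) and uniqueness (`LocUniqC`), with ONE named hypothesis:

* `LocNontrivC293`: the local component at `v` of a nontrivial character `ψ` of `𝔸_K / K` is
  nontrivial (strong approximation: `K + K_v` is dense in `𝔸_K`).  It is NEEDED: `LocRepC` asks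
  for a nontrivial `ψ_v` (`IsCharL`), and `FinAt.psi` forces `ψ_v = ψ ∘ ι_v`; for a trivial `ψ_v`
  the axiom `weyl` gives `F (w g) m` constant, hence `0` (integrable), hence `F = 0` on the
  admissible pairs, against `FinAt.pos`.

Construction (`v` any finite place, `k = K_v`):
`e` with `|t|, |n| ≤ exp e`; `M ≥ 1` with `χT = 1` on the level group
`Tlev = {a + b ω : a ∈ 1 + ϖ^M 𝒪, b ∈ ϖ^{M+e} 𝒪}` (continuity of `χT`, no small subgroups);
`Φ` = the indicator function of `Tlev` in the coordinates `1, ω`; `F` the family of `LocRepC` with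
`F 1 1 = Φ`; `N ≥ M` such that `ψ_v = 1` on `ϖ^N Q(supp Φ)` and on `ϖ^N Q(supp F(w, 1))`,
`η_v = 1` on `1 + ϖ^N 𝒪` and `1 + ϖ^N 𝒪 ⊆ (1 + ϖ^M 𝒪)²` (Hensel).
-/

set_option autoImplicit false

open IsDedekindDomain NumberField Filter Topology MeasureTheory

noncomputable section

namespace Fermat.Agent.LT.A2.H293

open Fermat.Agent.LT.T6 Fermat.Agent.LT.H129 Fermat.Agent.LT.H556 Fermat.Agent.LT.A2
  Fermat.Agent.LT.A2.WX467

/-- **Sub-leaf (strong approximation).**  The local component at a finite place `v` of a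
nontrivial continuous unitary character of `𝔸_K` trivial on `K` is nontrivial. -/
def LocNontrivC293 : Prop :=
  ∀ (K : Type) [Field K] [NumberField K] (ψ : A0.Adl K → ℂ) (v : HeightOneSpectrum (𝓞 K)),
    T1.T1Out K → IsAdeleChar ψ → ∃ x : A0.Adl K, WL.AdlAtFin v x ∧ ψ x ≠ 1

/-- **A2.03.1.1.09 / .12 `LocBadOfRepC`**, from `LocNontrivC293`. -/
theorem locBadOfRepC293 (hnt : LocNontrivC293) : LocBadOfRepC := by
  intro hrep huniq K _ _ t n χT ψ v hT1 hχ hψ
  -- the local character
  have hψv : IsCharL (fun y : v.adicCompletion K => ψ (locEmb293 v y)) := by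
    refine ⟨hψ.cont.comp (continuous_locEmb293 v), ?_, ?_, ?_⟩
    · intro x y
      show ψ (locEmb293 v (x + y)) = ψ (locEmb293 v x) * ψ (locEmb293 v y)
      rw [locEmb293_add, hψ.map_add]
    · intro x
      exact hψ.norm_one _
    · obtain ⟨x, hx, hne⟩ := hnt K ψ v hT1 hψ
      refine ⟨x.2 v, ?_⟩
      show ψ (locEmb293 v (x.2 v)) ≠ 1
      rw [← eq_locEmb293_of_adlAtFin hx]
      exact hne
  have hdisc : t ^ 2 - 4 * n ≠ 0 := by
    intro h
    apply hχ.irred (t / 2)
    field_simp
    linear_combination -h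
  obtain ⟨μv, γv, ηv, hF⟩ := hrep K v t n _ hdisc hψv
  obtain ⟨e, ht, hn⟩ := exists_bound293 v (algebraMap K (v.adicCompletion K) t)
    (algebraMap K (v.adicCompletion K) n)
  obtain ⟨M, hM1, hMχ⟩ := chi_triv293 v hχ ht hn
  obtain ⟨N, F, hax, hsb, hF11, hri, hre⟩ := finCore293 huniq (isCompact_ball_zero293 v)
    (two_ne_zero293 v) (fun a ha => norm_pos_iff.mpr ha) (norm_eq_one_of_val293 v) hF hM1 ht hn
  refine ⟨N, fun y : v.adicCompletion K => ψ (locEmb293 v y), μv, γv, ηv, F,
    tlev293 (algebraMap K (v.adicCompletion K) t) (algebraMap K (v.adicCompletion K) n) M e, ?_⟩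
  rintro L' ⟨rfl, rfl, rfl, rfl⟩ ⟨h1, rfl, rfl, rfl, rfl, h6⟩ hlev
  have hsub := idealClosure_subset_ball293 v hlev
  exact
    { ax := by
        rw [h1]
        exact hax
      psi := by
        intro x hx
        rw [h1]
        show L'.ψ x = L'.ψ (locEmb293 v (x.2 v))
        rw [← eq_locEmb293_of_adlAtFin hx]
      sb := hsb
      tlev_tor := by
        intro κ hκ
        rw [h6] at hκ
        exact tlev_tor293 ht hn hM1 hκ
      tlev_nhds := by
        rw [h6]
        exact tlev_nhds293 _ _ M e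
      tlev_mul := by
        intro κ hκ κ' hκ'
        rw [h6] at hκ hκ' ⊢
        exact tlev_mul293 ht hn hκ hκ'
      tlev_inv := by
        intro κ hκ
        rw [h6] at hκ ⊢
        exact tlev_inv293 ht hn hM1 hκ
      right_inv := by
        intro k₀ κ hk₀ hκ hdet g m ξ hadm
        rw [h6] at hκ
        exact hri k₀ κ (fun i j => hsub (hk₀.2 i j).1) hκ hdet g m ξ hadm
      right_ex := by
        intro k₀ hk₀
        rw [h6]
        exact hre k₀ fun i j => hsub (hk₀.2 i j).1
      chi_triv := by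
        intro κ hloc hκ
        rw [h6] at hκ
        exact hMχ κ hloc hκ
      pos := by
        rw [hF11]
        exact phi_pos293 M e
      orb := by
        intro κ hκ hdet hne
        rw [h6]
        rw [hF11] at hne
        exact phi_orb293 ht hn hM1 hκ hdet hne }

end Fermat.Agent.LT.A2.H293

end
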