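import Mathlib
import Fermat.Agent.LT.A2.H293.Top
import Fermat.Agent.LT.A2.H352.LocNontriv

/-!
# Row LT, tower A2, leaf A2.03.1.1.09 `WX467.LocBadOfRepC` (helper293) -- CLOSED

OFF-MAIN.  `locBadOfRepC_closed293 : WX467.LocBadOfRepC`, UNCONDITIONAL: the top
`locBadOfRepC293` (`Top.lean`) with its only hypothesis `LocNontrivC293` discharged by the asset
`locNontriv_fin352` of helper352 (registry 1608: the local components of an adele character are
nontrivial; strong approximation).
-/

set_option autoImplicit false

noncomputable section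

namespace Fermat.Agent.LT.A2.H293

open Fermat.Agent.LT.A2

/-- The sub-leaf `LocNontrivC293`, by helper352's `locNontriv_fin352`. -/
theorem locNontrivC293 : LocNontrivC293 :=
  fun _ _ _ _ v _ hψ => Fermat.Agent.LT.A2.H352.locNontriv_fin352 hψ v

/-- **A2.03.1.1.09 / .12 `WX467.LocBadOfRepC`, VERBATIM and UNCONDITIONAL.** -/
theorem locBadOfRepC_closed293 : WX467.LocBadOfRepC :=
  locBadOfRepC293 locNontrivC293

end Fermat.Agent.LT.A2.H293

end
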